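/-
GATE-S (S33) / FRAME², node [L3-SEC] (helper37): the SECTIONS LEMMA over the abstract disc frame
`Φ : DiscData K F k Sp 𝒬` + `DiscFacts Φ` of `GS/Frame/Vocab.lean` — port of
`GH/Add/Sections.exists_sections`.

Consumed facts: `degF`, `sp_one_ne_zero`, (F1) `exists_value`, (F7) `const_of_small`,
(F8) `finrank_redSpace`, (F9) `riemann`; `Φ.disc_disjoint`.

* `poleDiv pt 𝔤`     : `Σ centres + 𝔤.D0`.
* `mul_mem_Odisc`    : `t_i * e ∈ Odisc Φ (Q i)` for `e ∈ L(poleDiv) ∩ B`.
* `exists_sections`  : chart points `pt i` over pairwise distinct special points `Q i`, a kernel chart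
  `𝔤` with `n = g` points off them: there are `#ι` sections `e j ∈ L(poleDiv) ∩ B` such that for
  ARBITRARY points `X i` of the discs the matrix of values `(t_i e_j)(X_i)` is integral with unit
  determinant.
-/
import Mathlib
import Fermat.Agent.GS.Frame.Vocab
import Fermat.Agent.GH.Add.Sections
import Fermat.Agent.S24.PlaceBasic

set_option autoImplicit false

noncomputable section

open AlgebraicCurve

namespace Fermat.Agent.GS.Frame.Sec

open Fermat.Agent.RRh45 Fermat.Agent.GJ.S37MinDiv Fermat.Agent.S24 Fermat.Agent.GH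
  Fermat.Agent.GH.AddSec Fermat.Agent.GS.Frame

variable {K F k Sp 𝒬 : Type*} [Field K] [Field F] [Algebra K F] [Field k]
  [CommRing Sp] [Algebra k Sp]
variable {Φ : DiscData K F k Sp 𝒬} {n : ℕ}
variable {ι : Type} [Fintype ι]

/-- The pole divisor of the sections: the centres of the chart points `pt i` plus the base
divisor of the kernel chart `𝔤`. -/
def poleDiv {Q : ι → 𝒬} (pt : ∀ i, CPt Φ (Q i)) (𝔤 : Chart Φ n) : Divisor K F :=
  (∑ i, Finsupp.single (pt i).P (1 : ℤ)) + 𝔤.D0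

theorem poleDiv_nonneg {Q : ι → 𝒬} (pt : ∀ i, CPt Φ (Q i)) (𝔤 : Chart Φ n) :
    0 ≤ poleDiv pt 𝔤 := by
  refine add_nonneg (Finset.sum_nonneg fun i _ => Finsupp.single_nonneg.mpr zero_le_one) ?_
  exact Finset.sum_nonneg fun i _ => Finsupp.single_nonneg.mpr zero_le_one

theorem degree_poleDiv (hF : DiscFacts Φ) {Q : ι → 𝒬} (pt : ∀ i, CPt Φ (Q i)) (𝔤 : Chart Φ n) :
    Divisor.degree (poleDiv pt 𝔤) = Fintype.card ι + n := by
  rw [poleDiv, map_add, map_sum, Chart.D0, map_sum]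
  simp [Divisor.degree_single, hF.degF]

/-- two discs over different special points do not meet. -/
theorem eq_of_mem_disc {Q Q' : 𝒬} {P : Place K F} (h : P ∈ Φ.disc Q) (h' : P ∈ Φ.disc Q') :
    Q = Q' := by
  by_contra hne
  exact Φ.disc_disjoint hne P h h'

/-- off the centres, the pole divisor vanishes on the discs of the points `pt i`. -/
theorem poleDiv_apply_of_ne {Q : ι → 𝒬} (hQ : Function.Injective Q)
    (pt : ∀ i, CPt Φ (Q i)) (𝔤 : Chart Φ n) (hdisj : ∀ i j, Q i ≠ 𝔤.Q j) {i : ι}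
    {P : Place K F} (hP : P ∈ Φ.disc (Q i)) (hne : P ≠ (pt i).P) : poleDiv pt 𝔤 P = 0 := by
  classical
  rw [poleDiv, Chart.D0, Finsupp.add_apply, Finsupp.finsetSum_apply, Finsupp.finsetSum_apply]
  have h1 : ∑ j, (Finsupp.single (pt j).P (1 : ℤ)) P = 0 := by
    refine Finset.sum_eq_zero fun j _ => ?_
    rw [Finsupp.single_apply, if_neg]
    intro hj
    have hji : j = i := hQ (eq_of_mem_disc (by rw [← hj]; exact (pt j).hP) hP)
    subst hji
    exact hne hj.symm
  have h2 : ∑ j, (Finsupp.single (𝔤.pt j).P (1 : ℤ)) P = 0 := by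
    refine Finset.sum_eq_zero fun j _ => ?_
    rw [Finsupp.single_apply, if_neg]
    intro hj
    exact hdisj i j (eq_of_mem_disc hP (by rw [← hj]; exact (𝔤.pt j).hP))
  rw [h1, h2, add_zero]

/-- at a centre the pole divisor is `1`. -/
theorem poleDiv_apply_centre {Q : ι → 𝒬} (hQ : Function.Injective Q)
    (pt : ∀ i, CPt Φ (Q i)) (𝔤 : Chart Φ n) (hdisj : ∀ i j, Q i ≠ 𝔤.Q j) (i : ι) :
    poleDiv pt 𝔤 (pt i).P = 1 := by
  classical
  rw [poleDiv, Chart.D0, Finsupp.add_apply, Finsupp.finsetSum_apply, Finsupp.finsetSum_apply]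
  have h1 : ∑ j, (Finsupp.single (pt j).P (1 : ℤ)) (pt i).P = 1 := by
    rw [Finset.sum_eq_single i]
    · simp
    · intro j _ hji
      rw [Finsupp.single_apply, if_neg]
      intro hj
      exact hji (hQ (eq_of_mem_disc (by rw [← hj]; exact (pt j).hP) (pt i).hP))
    · intro h; exact absurd (Finset.mem_univ i) h
  have h2 : ∑ j, (Finsupp.single (𝔤.pt j).P (1 : ℤ)) (pt i).P = 0 := by
    refine Finset.sum_eq_zero fun j _ => ?_
    rw [Finsupp.single_apply, if_neg]
    intro hj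
    exact hdisj i j (eq_of_mem_disc (pt i).hP (by rw [← hj]; exact (𝔤.pt j).hP))
  rw [h1, h2, add_zero]

/-- `t_i * e` has no pole on the `i`-th disc when `e ∈ L(poleDiv)`. -/
theorem mul_mem_toValuationSubring {Q : ι → 𝒬} (hQ : Function.Injective Q)
    (pt : ∀ i, CPt Φ (Q i)) (𝔤 : Chart Φ n) (hdisj : ∀ i j, Q i ≠ 𝔤.Q j) {e : F}
    (he : e ∈ riemannRochSpace (poleDiv pt 𝔤)) (i : ι) {P : Place K F}
    (hP : P ∈ Φ.disc (Q i)) : (pt i).t * e ∈ P.toValuationSubring := by
  rcases eq_or_ne e 0 with rfl | he0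
  · rw [mul_zero]; exact P.toValuationSubring.zero_mem
  have hord := (mem_riemannRochSpace_iff.mp he P).resolve_left he0
  by_cases hPi : P = (pt i).P
  · subst hPi
    rw [poleDiv_apply_centre hQ pt 𝔤 hdisj i] at hord
    rcases (valueAt_zero_iff _).mp (pt i).ht0 with ht | ht
    · rw [ht, zero_mul]; exact (pt i).P.toValuationSubring.zero_mem
    · have ht0 : (pt i).t ≠ 0 := fun h => by rw [h, Place.ord_zero] at ht; exact lt_irrefl _ ht
      rw [← PlaceB.ord_nonneg_iff _ (mul_ne_zero ht0 he0), Place.ord_mul _ ht0 he0]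
      omega
  · rw [poleDiv_apply_of_ne hQ pt 𝔤 hdisj hP hPi] at hord
    refine P.toValuationSubring.mul_mem _ _ ((pt i).ht.2 P hP) ?_
    rw [← PlaceB.ord_nonneg_iff _ he0]
    omega

theorem mul_mem_Odisc {Q : ι → 𝒬} (hQ : Function.Injective Q)
    (pt : ∀ i, CPt Φ (Q i)) (𝔤 : Chart Φ n) (hdisj : ∀ i j, Q i ≠ 𝔤.Q j) {e : F}
    (heB : e ∈ Φ.B) (he : e ∈ riemannRochSpace (poleDiv pt 𝔤)) (i : ι) :
    (pt i).t * e ∈ Odisc Φ (Q i) :=
  ⟨Φ.B.mul_mem (pt i).ht.1 heB, fun _ hP => mul_mem_toValuationSubring hQ pt 𝔤 hdisj he i hP⟩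

theorem one_mem_redSpace (Φ : DiscData K F k Sp 𝒬) {D : Divisor K F} (hD : 0 ≤ D) :
    (1 : Sp) ∈ redSpace Φ D :=
  ⟨1, by simpa using one_mem_riemannRochSpace hD, map_one _⟩

/-- an `A`-combination of integral sections whose values are all small reduces to a constant. -/
theorem red_combo_eq_algebraMap (hF : DiscFacts Φ) {Q : ι → 𝒬} (hQ : Function.Injective Q)
    (pt : ∀ i, CPt Φ (Q i)) (𝔤 : Chart Φ n) (hdisj : ∀ i j, Q i ≠ 𝔤.Q j) {d : ℕ}
    (x : Fin d → Φ.B) (hxL : ∀ j, (x j : F) ∈ riemannRochSpace (poleDiv pt 𝔤))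
    {X : ι → Place K F} (hX : ∀ i, X i ∈ Φ.disc (Q i))
    (N : ι → Fin d → K) (hNA : ∀ i j, N i j ∈ Φ.A)
    (hNval : ∀ i j, ValueAt (X i) ((pt i).t * (x j : F)) (N i j))
    (a : Fin d → Φ.A)
    (hsmall : ∀ i, ∑ j, Φ.res ⟨N i j, hNA i j⟩ * Φ.res (a j) = 0) :
    ∃ α : k, ∑ j, Φ.res (a j) • Φ.red (x j) = algebraMap k Sp α := by
  classical
  let aw : Fin d → Φ.B := fun j => ⟨algebraMap K F (a j : K), (Φ.mem_A_iff _).1 (a j).2⟩
  have hecoe : ((∑ j, aw j * x j : Φ.B) : F) = ∑ j, algebraMap K F (a j : K) * (x j : F) := by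
    push_cast; rfl
  have heL : ((∑ j, aw j * x j : Φ.B) : F) ∈ riemannRochSpace (poleDiv pt 𝔤) := by
    rw [hecoe]
    refine Submodule.sum_mem _ fun j _ => ?_
    have := (riemannRochSpace (poleDiv pt 𝔤)).smul_mem (a j : K) (hxL j)
    rwa [Algebra.smul_def] at this
  have hevalue : ∀ i, ValueAt (X i) ((pt i).t * ((∑ j, aw j * x j : Φ.B) : F))
      (∑ j, (a j : K) * N i j) := by
    intro i
    have h1 : (pt i).t * ((∑ j, aw j * x j : Φ.B) : F)
        = ∑ j, algebraMap K F (a j : K) * ((pt i).t * (x j : F)) := by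
      rw [hecoe, Finset.mul_sum]
      exact Finset.sum_congr rfl fun j _ => by ring
    rw [h1]
    exact ValueAt.sum _ _ fun j _ => ValueAt.smul _ _ (hNval i j)
  have hsm : ∀ i, Φ.A.valuation (∑ j, (a j : K) * N i j) < 1 := by
    intro i
    have h1 : (∑ j, (a j : K) * N i j)
        = ((∑ j, a j * (⟨N i j, hNA i j⟩ : Φ.A) : Φ.A) : K) := by
      push_cast; rfl
    rw [h1, ← Φ.res_eq_zero_iff, map_sum, ← hsmall i]
    refine Finset.sum_congr rfl fun j _ => ?_
    rw [map_mul, mul_comm]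
  obtain ⟨α, hα⟩ := hF.const_of_small hQ pt 𝔤 hdisj (∑ j, aw j * x j : Φ.B).2 heL hX hevalue hsm
  refine ⟨α, ?_⟩
  rw [← hα]
  have hsub : (⟨((∑ j, aw j * x j : Φ.B) : F), (∑ j, aw j * x j : Φ.B).2⟩ : Φ.B)
      = ∑ j, aw j * x j := rfl
  rw [hsub, map_sum]
  refine Finset.sum_congr rfl fun j _ => ?_
  rw [map_mul, Algebra.smul_def]
  congr 1
  exact (Φ.red_algebraMap (a j)).symm

/-- the reduced value matrix of a family of lifts of a complement of the constants has trivial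
kernel, at ARBITRARY points of the discs. -/
theorem ker_eq_zero_of_lifts (hF : DiscFacts Φ) {Q : ι → 𝒬} (hQ : Function.Injective Q)
    (pt : ∀ i, CPt Φ (Q i)) (𝔤 : Chart Φ n) (hdisj : ∀ i j, Q i ≠ 𝔤.Q j) {d : ℕ}
    (x : Fin d → Φ.B) (hxL : ∀ j, (x j : F) ∈ riemannRochSpace (poleDiv pt 𝔤))
    (hindep : ∀ (a : Fin d → k) (α : k),
      ∑ j, a j • Φ.red (x j) = algebraMap k Sp α → a = 0)
    {X : ι → Place K F} (hX : ∀ i, X i ∈ Φ.disc (Q i))
    (N : ι → Fin d → K) (hNA : ∀ i j, N i j ∈ Φ.A)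
    (hNval : ∀ i j, ValueAt (X i) ((pt i).t * (x j : F)) (N i j)) (abar : Fin d → k)
    (habar : (Matrix.of fun i j => Φ.res ⟨N i j, hNA i j⟩).mulVec abar = 0) : abar = 0 := by
  classical
  have hlifta : ∀ j, ∃ a : Φ.A, Φ.res a = abar j := fun j => Φ.res_surjective _
  choose a ha using hlifta
  have hsmall : ∀ i, ∑ j, Φ.res ⟨N i j, hNA i j⟩ * Φ.res (a j) = 0 := by
    intro i
    have h2 := congrFun habar i
    simp only [Matrix.mulVec, dotProduct, Pi.zero_apply, Matrix.of_apply] at h2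
    rw [← h2]
    refine Finset.sum_congr rfl fun j _ => ?_
    rw [ha j]
  obtain ⟨α, hα⟩ := red_combo_eq_algebraMap hF hQ pt 𝔤 hdisj x hxL hX N hNA hNval a hsmall
  refine hindep abar α ?_
  rw [← hα]
  exact Finset.sum_congr rfl fun j _ => by rw [ha j]

/-- **SECTIONS LEMMA** over the abstract disc frame. -/
theorem exists_sections [DecidableEq ι] (hF : DiscFacts Φ) (hn : (n : ℤ) = Φ.g)
    {Q : ι → 𝒬} (hQ : Function.Injective Q)
    (pt : ∀ i, CPt Φ (Q i)) (𝔤 : Chart Φ n) (hdisj : ∀ i j, Q i ≠ 𝔤.Q j) :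
    ∃ e : ι → F, (∀ j, e j ∈ Φ.B) ∧ (∀ j, e j ∈ riemannRochSpace (poleDiv pt 𝔤)) ∧
      ∀ X : ι → Place K F, (∀ i, X i ∈ Φ.disc (Q i)) → ∀ N : Matrix ι ι K,
        (∀ i j, ValueAt (X i) ((pt i).t * e j) (N i j)) →
          (∀ i j, N i j ∈ Φ.A) ∧ Φ.A.valuation N.det = 1 := by
  classical
  have h𝔄 : 0 ≤ poleDiv pt 𝔤 := poleDiv_nonneg pt 𝔤
  have hfin : Module.Finite k (redSpace Φ (poleDiv pt 𝔤)) := (hF.finrank_redSpace _ h𝔄).1
  -- dimension of the reduced space
  have hdimW : (Fintype.card ι : ℤ) + 1 ≤ Module.finrank k (redSpace Φ (poleDiv pt 𝔤)) := by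
    have h1 := hF.riemann (poleDiv pt 𝔤)
    rw [degree_poleDiv hF, ← (hF.finrank_redSpace _ h𝔄).2] at h1
    omega
  -- a complement of the line of constants
  have hone0 : (⟨1, one_mem_redSpace Φ h𝔄⟩ : redSpace Φ (poleDiv pt 𝔤)) ≠ 0 := fun h =>
    hF.sp_one_ne_zero (congrArg Subtype.val h)
  obtain ⟨d, cC, hdim, hindep⟩ := exists_compl_family (k := k) hone0
  -- lifts of the complement vectors
  have hlift : ∀ j : Fin d, ∃ x : Φ.B, (x : F) ∈ riemannRochSpace (poleDiv pt 𝔤) ∧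
      Φ.red x = ((cC j : redSpace Φ (poleDiv pt 𝔤)) : Sp) := fun j => (cC j).2
  choose x hxL hxred using hlift
  have hindep' : ∀ (a : Fin d → k) (α : k),
      ∑ j, a j • Φ.red (x j) = algebraMap k Sp α → a = 0 := by
    intro a α h
    refine hindep a α (Subtype.ext ?_)
    have h3 : ((∑ j, a j • cC j : redSpace Φ (poleDiv pt 𝔤)) : Sp)
        = ∑ j, a j • Φ.red (x j) := by
      push_cast
      exact Finset.sum_congr rfl fun j _ => by rw [hxred j]
    rw [h3, h, Submodule.coe_smul, Algebra.smul_def, mul_one]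
  -- values at arbitrary points of the discs
  have hvalX : ∀ X : ι → Place K F, (∀ i, X i ∈ Φ.disc (Q i)) → ∀ i j,
      ∃ a : K, a ∈ Φ.A ∧ ValueAt (X i) ((pt i).t * (x j : F)) a := fun X hX i j =>
    hF.exists_value (mul_mem_Odisc hQ pt 𝔤 hdisj (x j).2 (hxL j) i) _ (hX i)
  -- `d = #ι`, from the centres
  have hdeq : d = Fintype.card ι := by
    have hcen : ∀ i, (pt i).P ∈ Φ.disc (Q i) := fun i => (pt i).hP
    choose N hNA hNval using hvalX (fun i => (pt i).P) hcen
    have hinj : Function.Injective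
        (Matrix.of fun i j => Φ.res ⟨N i j, hNA i j⟩ : Matrix ι (Fin d) k).mulVecLin := by
      rw [← LinearMap.ker_eq_bot, LinearMap.ker_eq_bot']
      intro abar habar
      exact ker_eq_zero_of_lifts hF hQ pt 𝔤 hdisj x hxL hindep' hcen N hNA hNval abar
        (by simpa using habar)
    have hdle : d ≤ Fintype.card ι := by
      have := LinearMap.finrank_le_finrank_of_injective hinj
      simpa using this
    have : (Fintype.card ι : ℤ) + 1 ≤ 1 + (d : ℤ) := by
      have := hdimW; rw [hdim] at this; exact_mod_cast this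
    omega
  let ε : Fin d ≃ ι := Fintype.equivOfCardEq (by rw [Fintype.card_fin, hdeq])
  refine ⟨fun j => (x (ε.symm j) : F), fun j => (x _).2, fun j => hxL _, fun X hX N hN => ?_⟩
  -- integrality of the given values
  have hNA : ∀ i j, N i j ∈ Φ.A := by
    intro i j
    obtain ⟨a, haA, hav⟩ := hvalX X hX i (ε.symm j)
    rw [ValueAt.unique _ (hN i j) hav]
    exact haA
  refine ⟨hNA, ?_⟩
  let NA' : Matrix ι ι Φ.A := fun i j => ⟨N i j, hNA i j⟩
  have hdetK : N.det = ((NA'.det : Φ.A) : K) := by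
    have := RingHom.map_det Φ.A.subtype NA'
    rw [show (Φ.A.subtype NA'.det : K) = ((NA'.det : Φ.A) : K) from rfl] at this
    rw [this]
    rfl
  -- the kernel of the reduced matrix is trivial
  have hinj' : Function.Injective (NA'.map Φ.res).mulVec := by
    have hker : ∀ u : ι → k, (NA'.map Φ.res).mulVec u = 0 → u = 0 := by
      intro u hu
      have h0 := ker_eq_zero_of_lifts hF hQ pt 𝔤 hdisj x hxL hindep' hX
        (fun i j => N i (ε j)) (fun i j => hNA i (ε j))
        (fun i j => by simpa using hN i (ε j)) (u ∘ ε) ?_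
      · funext j
        have := congrFun h0 (ε.symm j)
        simpa using this
      · ext i
        have h2 := congrFun hu i
        simp only [Matrix.mulVec, dotProduct, Pi.zero_apply, Matrix.map_apply] at h2
        simp only [Matrix.mulVec, dotProduct, Pi.zero_apply, Matrix.of_apply,
          Function.comp_apply]
        rw [← h2]
        exact Equiv.sum_comp ε fun j => Φ.res (NA' i j) * u j
    intro v v' hvv
    have : v - v' = 0 := hker _ (by rw [Matrix.mulVec_sub, hvv, sub_self])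
    exact sub_eq_zero.mp this
  have hunit : IsUnit (NA'.map Φ.res).det :=
    (Matrix.isUnit_iff_isUnit_det _).mp (Matrix.mulVec_injective_iff_isUnit.mp hinj')
  have hres : Φ.res NA'.det ≠ 0 := by
    have := RingHom.map_det Φ.res NA'
    rw [this]
    exact hunit.ne_zero
  have hle : Φ.A.valuation ((NA'.det : Φ.A) : K) ≤ 1 :=
    (Φ.A.valuation_le_one_iff _).mpr NA'.det.2
  rw [hdetK]
  exact le_antisymm hle (not_lt.mp fun h => hres ((Φ.res_eq_zero_iff _).mpr h))

end Fermat.Agent.GS.Frame.Sec
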