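/-
GATE-S (S33) / FRAME², generic layer, node [L3-ADD] file 1 (helper92): DIVISOR BOOKKEEPING over an
abstract disc frame (`GS/Frame/Vocab.lean`).  Port of the global part of `GH/Add/DivBook.lean`:
the one-disc facts are the fields (F5) `ord_on_chart_disc` and (F6) `ord_eq_zero_off` of `DiscFacts`.

* `valueAt_zero_iff`, `mem_iff_ord_nonneg`      : bridges (frame-free, re-proved to keep imports small);
* `sum_single_apply_of_mem/_of_notMem`          : evaluating sums of points lying in distinct discs;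
* `divBook`                                     : the divisor of `h ∈ L(Σ [centres in] + 𝔬.D0) ∩ B`
  with `red h = 1` and `(t_i h)(Pin i) = 0`.
-/
import Mathlib
import Fermat.Agent.GS.Frame.Vocab
import Fermat.Agent.RR_helper67.WeakApprox

set_option autoImplicit false

noncomputable section

open AlgebraicCurve

namespace Fermat.Agent.GS.Frame

open Fermat.Agent.RRh45 Fermat.Agent.GH

open scoped Classical

variable {K F k Sp 𝒬 : Type*} [Field K] [Field F] [Algebra K F] [Field k]
  [CommRing Sp] [Algebra k Sp]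

/-! ### bridges between `ValuationSubring.valuation` and `Place.ord` -/

theorem mem_iff_ord_nonneg (P : Place K F) {e : F} (he : e ≠ 0) :
    e ∈ P.toValuationSubring ↔ 0 ≤ P.ord e := by
  rw [Fermat.Agent.RRh67.mem_toValuationSubring_iff, P.adicValuation_le_one_iff]
  exact or_iff_right he

theorem valuation_lt_one_iff_ord_pos (P : Place K F) {e : F} (he : e ≠ 0) :
    P.toValuationSubring.valuation e < 1 ↔ 0 < P.ord e := by
  constructor
  · intro h
    have hmem : e ∈ P.toValuationSubring :=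
      (P.toValuationSubring.valuation_le_one_iff e).mp h.le
    have h0 : 0 ≤ P.ord e := (mem_iff_ord_nonneg P he).mp hmem
    rcases h0.lt_or_eq with h1 | h1
    · exact h1
    · exfalso
      have hadic : P.adicValuation e = 1 := by
        rw [P.adicValuation_eq_exp_neg_ord he, ← h1]; simp
      have hu : IsUnit (⟨e, hmem⟩ : P.toValuationSubring) :=
        (P.adicValuation_coe_eq_one_iff ⟨e, hmem⟩).mp hadic
      have := (P.toValuationSubring.valuation_eq_one_iff ⟨e, hmem⟩).mp hu
      exact absurd h (by rw [this]; exact lt_irrefl _)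
  · intro h
    have hmem : e ∈ P.toValuationSubring := (mem_iff_ord_nonneg P he).mpr h.le
    have hle : P.toValuationSubring.valuation e ≤ 1 :=
      (P.toValuationSubring.valuation_le_one_iff e).mpr hmem
    refine lt_of_le_of_ne hle fun h1 => ?_
    have hu : IsUnit (⟨e, hmem⟩ : P.toValuationSubring) :=
      (P.toValuationSubring.valuation_eq_one_iff ⟨e, hmem⟩).mpr h1
    have hadic : P.adicValuation e = 1 := (P.adicValuation_coe_eq_one_iff ⟨e, hmem⟩).mpr hu
    rw [P.adicValuation_eq_exp_neg_ord he] at hadic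
    have : -P.ord e = 0 := by
      have := WithZero.exp_injective (hadic.trans WithZero.exp_zero.symm)
      exact this
    omega

theorem valueAt_zero_iff (P : Place K F) (e : F) : ValueAt P e 0 ↔ e = 0 ∨ 0 < P.ord e := by
  unfold ValueAt
  rw [map_zero, sub_zero]
  rcases eq_or_ne e 0 with rfl | he
  · simp
  · rw [valuation_lt_one_iff_ord_pos P he]; exact (or_iff_right he).symm

variable {Φ : DiscData K F k Sp 𝒬}

/-- an element of `B` with reduction `1` is nonzero. -/
theorem ne_zero_of_red_eq_one (hΦ : DiscFacts Φ) {h : F} (hB : h ∈ Φ.B) (hred : Φ.red ⟨h, hB⟩ = 1) :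
    h ≠ 0 := fun h0 => hΦ.sp_one_ne_zero (by
  have : (⟨h, hB⟩ : Φ.B) = 0 := Subtype.ext h0
  rw [← hred, this, map_zero])

/-! ### evaluating sums of points lying in distinct discs -/

theorem sum_single_apply_of_mem {ι : Type*} [Fintype ι]
    {Qx : ι → 𝒬} (hQx : Function.Injective Qx)
    {X : ι → Place K F} (hX : ∀ i, X i ∈ Φ.disc (Qx i)) {P : Place K F} {i₀ : ι}
    (hP : P ∈ Φ.disc (Qx i₀)) :
    (∑ i, Finsupp.single (X i) (1 : ℤ)) P = if P = X i₀ then 1 else 0 := by
  rw [Finsupp.finsetSum_apply, Finset.sum_eq_single i₀]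
  · rw [Finsupp.single_apply]
    by_cases h : P = X i₀
    · rw [if_pos h, if_pos h.symm]
    · rw [if_neg h, if_neg (fun h' => h h'.symm)]
  · intro i _ hi
    rw [Finsupp.single_apply, if_neg]
    intro hXP
    have hne : Qx i ≠ Qx i₀ := fun h => hi (hQx h)
    exact Φ.disc_disjoint hne (X i) (hX i) (by rw [hXP]; exact hP)
  · intro h; exact absurd (Finset.mem_univ _) h

theorem sum_single_apply_of_notMem {ι : Type*} [Fintype ι]
    {Qx : ι → 𝒬} {X : ι → Place K F} (hX : ∀ i, X i ∈ Φ.disc (Qx i)) {P : Place K F}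
    (hP : ∀ i, P ∉ Φ.disc (Qx i)) :
    (∑ i, Finsupp.single (X i) (1 : ℤ)) P = 0 := by
  rw [Finsupp.finsetSum_apply]
  refine Finset.sum_eq_zero fun i _ => ?_
  rw [Finsupp.single_apply, if_neg]
  intro hXP
  exact hP i (by rw [← hXP]; exact hX i)

/-! ### the divisor of the interpolating function -/

/-- **DIVISOR BOOKKEEPING** (step (B) of node ADD) over an abstract disc frame.  Input chart points
`pin i` over pairwise distinct special points `Qin i`, an output chart `𝔬` over special points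
different from all `Qin i`; `h ∈ L(Σ_i [centre of pin i] + 𝔬.D0) ∩ B` with `red h = 1` such that
`t_i h` vanishes at a point `Pin i` of the `i`-th input disc.  Then there are points `Pout j` of the
output discs at which `t'_j h` vanishes, and
`div h = Σ_i ([Pin i] - [centre_i]) + Σ_j ([Pout j] - [centre'_j])`. -/
theorem divBook (hΦ : DiscFacts Φ) {ι : Type*} [Fintype ι] {n : ℕ}
    {Qin : ι → 𝒬} (pin : ∀ i, CPt Φ (Qin i)) (𝔬 : Chart Φ n)
    (hQin : Function.Injective Qin) (hdisj : ∀ i j, Qin i ≠ 𝔬.Q j)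
    {h : F} (hL : h ∈ riemannRochSpace (∑ i, Finsupp.single (pin i).P (1 : ℤ) + 𝔬.D0))
    (hB : h ∈ Φ.B) (hred : Φ.red ⟨h, hB⟩ = 1)
    {Pin : ι → Place K F} (hPin : ∀ i, Pin i ∈ Φ.disc (Qin i))
    (hzero : ∀ i, ValueAt (Pin i) ((pin i).t * h) 0) :
    ∃ Pout : Fin n → Place K F, (∀ j, Pout j ∈ Φ.disc (𝔬.Q j)) ∧
      (∀ j, ValueAt (Pout j) ((𝔬.pt j).t * h) 0) ∧
      ∀ P : Place K F,
        ((∑ i, Finsupp.single (Pin i) (1 : ℤ) - ∑ i, Finsupp.single (pin i).P (1 : ℤ))
          + (∑ j, Finsupp.single (Pout j) (1 : ℤ) - 𝔬.D0)) P = P.ord h := by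
  have hh0 : h ≠ 0 := ne_zero_of_red_eq_one hΦ hB hred
  have hLP : ∀ P : Place K F,
      -((∑ i, Finsupp.single (pin i).P (1 : ℤ)) P + (∑ j, Finsupp.single (𝔬.pt j).P (1 : ℤ)) P)
        ≤ P.ord h := fun P => by
    have := (mem_riemannRochSpace_iff.mp hL P).resolve_left hh0
    rwa [Finsupp.add_apply] at this
  have hcin : ∀ i, (pin i).P ∈ Φ.disc (Qin i) := fun i => (pin i).hP
  have hcout : ∀ j, (𝔬.pt j).P ∈ Φ.disc (𝔬.Q j) := fun j => (𝔬.pt j).hP
  -- output discs
  have hout : ∀ j, ∃ Ps ∈ Φ.disc (𝔬.Q j), ValueAt Ps ((𝔬.pt j).t * h) 0 ∧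
      (∀ P' ∈ Φ.disc (𝔬.Q j), ValueAt P' ((𝔬.pt j).t * h) 0 → P' = Ps) ∧
      ∀ P ∈ Φ.disc (𝔬.Q j),
        P.ord h = (if P = Ps then 1 else 0) - (if P = (𝔬.pt j).P then 1 else 0) := fun j => by
    refine hΦ.ord_on_chart_disc (𝔬.pt j) hB hred fun P hP => ?_
    have h1 := hLP P
    have hnot : ∀ i, P ∉ Φ.disc (Qin i) := fun i => Φ.disc_disjoint (hdisj i j).symm P hP
    rw [sum_single_apply_of_notMem hcin hnot, sum_single_apply_of_mem 𝔬.hQ hcout hP,
      zero_add] at h1
    exact h1
  choose Pout hPout hPoutv _ hPoutord using hout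
  -- input discs
  have hin : ∀ i, ∀ P ∈ Φ.disc (Qin i),
      P.ord h = (if P = Pin i then 1 else 0) - (if P = (pin i).P then 1 else 0) := fun i => by
    obtain ⟨Ps, hPs, _, hPsu, hPsord⟩ := hΦ.ord_on_chart_disc (pin i) hB hred fun P hP => by
      have h1 := hLP P
      have hnot : ∀ j, P ∉ Φ.disc (𝔬.Q j) := fun j => Φ.disc_disjoint (hdisj i j) P hP
      rw [sum_single_apply_of_mem hQin hcin hP, sum_single_apply_of_notMem hcout hnot,
        add_zero] at h1
      exact h1
    have : Pin i = Ps := hPsu (Pin i) (hPin i) (hzero i)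
    rw [this]
    exact hPsord
  -- off the discs
  have hoff : ∀ P : Place K F, (∀ i, P ∉ Φ.disc (Qin i)) → (∀ j, P ∉ Φ.disc (𝔬.Q j)) →
      P.ord h = 0 := by
    intro P h1 h2
    refine hΦ.ord_eq_zero_off hB hred (Finset.univ.image Qin ∪ Finset.univ.image 𝔬.Q) ?_ P ?_
    · intro P' hP'
      have hn1 : ∀ i, P' ∉ Φ.disc (Qin i) := fun i =>
        hP' _ (Finset.mem_union_left _ (Finset.mem_image_of_mem _ (Finset.mem_univ i)))
      have hn2 : ∀ j, P' ∉ Φ.disc (𝔬.Q j) := fun j =>
        hP' _ (Finset.mem_union_right _ (Finset.mem_image_of_mem _ (Finset.mem_univ j)))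
      have h3 := hLP P'
      rw [sum_single_apply_of_notMem hcin hn1, sum_single_apply_of_notMem hcout hn2] at h3
      simpa using h3
    · intro Q hQ
      rcases Finset.mem_union.mp hQ with hQ | hQ
      · obtain ⟨i, -, rfl⟩ := Finset.mem_image.mp hQ
        exact h1 i
      · obtain ⟨j, -, rfl⟩ := Finset.mem_image.mp hQ
        exact h2 j
  refine ⟨Pout, hPout, hPoutv, fun P => ?_⟩
  rw [Finsupp.add_apply, Finsupp.sub_apply, Finsupp.sub_apply, Chart.D0]
  by_cases h1 : ∃ i, P ∈ Φ.disc (Qin i)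
  · obtain ⟨i, hi⟩ := h1
    have hnot : ∀ j, P ∉ Φ.disc (𝔬.Q j) := fun j => Φ.disc_disjoint (hdisj i j) P hi
    rw [sum_single_apply_of_mem hQin hPin hi, sum_single_apply_of_mem hQin hcin hi,
      sum_single_apply_of_notMem hPout hnot, sum_single_apply_of_notMem hcout hnot,
      hin i P hi]
    ring
  · push Not at h1
    by_cases h2 : ∃ j, P ∈ Φ.disc (𝔬.Q j)
    · obtain ⟨j, hj⟩ := h2
      rw [sum_single_apply_of_notMem hPin h1, sum_single_apply_of_notMem hcin h1,
        sum_single_apply_of_mem 𝔬.hQ hPout hj, sum_single_apply_of_mem 𝔬.hQ hcout hj,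
        hPoutord j P hj]
      ring
    · push Not at h2
      rw [sum_single_apply_of_notMem hPin h1, sum_single_apply_of_notMem hcin h1,
        sum_single_apply_of_notMem hPout h2, sum_single_apply_of_notMem hcout h2,
        hoff P h1 h2]
      ring

end Fermat.Agent.GS.Frame
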