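/-
GATE-S (S33) / FRAME², generic layer (helper87): from the contract `ChartSupply Φ n` of
`GS/Frame/Vocab.lean` to the shape consumed by `AddSpec` and by the transition lemma:

* `exists_charts_disjoint` : `m` charts with pairwise DISJOINT special supports, off any finite set
  of special points (port of `GH/G6/Supply.exists_charts_disjoint`; here pure combinatorics on the
  contract, no geometry);
* `chartSupply_of_points` : `ChartSupply Φ n` from (i) one chart point over every special point and
  (ii) a supply of `n`-point non-special families off any finite set (the output of the nodal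
  chart supply `GS/Nod/ChartPts.lean`).
-/
import Mathlib
import Fermat.Agent.GS.Frame.Vocab

set_option autoImplicit false

noncomputable section

open AlgebraicCurve

namespace Fermat.Agent.GS.Frame

open Fermat.Agent.RRh45 Fermat.Agent.GH

variable {K F k Sp 𝒬 : Type*} [Field K] [Field F] [Algebra K F] [Field k]
  [CommRing Sp] [Algebra k Sp]
variable {Φ : DiscData K F k Sp 𝒬} {n : ℕ}

/-- `ChartSupply` from chart points over every special point + non-special families off any finite
set. -/
theorem chartSupply_of_points (hpt : ∀ Q : 𝒬, Nonempty (CPt Φ Q))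
    (hfam : ∀ S : Finset 𝒬, ∃ Qf : Fin n → 𝒬, Function.Injective Qf ∧ (∀ i, Qf i ∉ S) ∧
      Φ.NS (Set.range Qf)) : ChartSupply Φ n := by
  intro S
  obtain ⟨Qf, hinj, hS, hns⟩ := hfam S
  exact ⟨⟨Qf, hinj, fun i => (hpt (Qf i)).some, hns⟩, hS⟩

/-- **`m` charts with pairwise disjoint special supports, off any finite set.** -/
theorem exists_charts_disjoint (hS : ChartSupply Φ n) (S : Finset 𝒬) (m : ℕ) :
    ∃ 𝔠 : Fin m → Chart Φ n, (∀ j i, (𝔠 j).Q i ∉ S) ∧
      ∀ j j', j ≠ j' → Disjoint (𝔠 j).supp (𝔠 j').supp := by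
  classical
  induction m with
  | zero => exact ⟨fun j => j.elim0, fun j => j.elim0, fun j => j.elim0⟩
  | succ m ih =>
    obtain ⟨𝔠, hoff, hdis⟩ := ih
    -- the special points used so far
    set U : Finset 𝒬 := Finset.univ.biUnion fun j : Fin m => Finset.univ.image (𝔠 j).Q with hU
    obtain ⟨𝔡, h𝔡⟩ := hS (S ∪ U)
    have h𝔡S : ∀ i, 𝔡.Q i ∉ S := fun i h => h𝔡 i (Finset.mem_union_left _ h)
    have h𝔡U : ∀ i (j : Fin m) i', 𝔡.Q i ≠ (𝔠 j).Q i' := by
      intro i j i' heq
      apply h𝔡 i
      refine Finset.mem_union_right _ ?_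
      rw [hU, Finset.mem_biUnion]
      exact ⟨j, Finset.mem_univ j, by rw [heq]; exact Finset.mem_image_of_mem _ (Finset.mem_univ i')⟩
    refine ⟨Fin.snoc 𝔠 𝔡, ?_, ?_⟩
    · intro j i
      refine Fin.lastCases ?_ (fun j' => ?_) j
      · rw [Fin.snoc_last]; exact h𝔡S i
      · rw [Fin.snoc_castSucc]; exact hoff j' i
    · intro j j'
      refine Fin.lastCases ?_ (fun a => ?_) j <;> refine Fin.lastCases ?_ (fun b => ?_) j'
      · intro hne
        exact absurd rfl hne
      · intro _
        rw [Fin.snoc_last, Fin.snoc_castSucc, Set.disjoint_left]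
        rintro _ ⟨i, rfl⟩ ⟨i', hi'⟩
        exact h𝔡U i b i' hi'.symm
      · intro _
        rw [Fin.snoc_last, Fin.snoc_castSucc, Set.disjoint_left]
        rintro _ ⟨i, rfl⟩ ⟨i', hi'⟩
        exact h𝔡U i' a i hi'
      · intro hne
        rw [Fin.snoc_castSucc, Fin.snoc_castSucc]
        exact hdis a b fun h => hne (by rw [h])

end Fermat.Agent.GS.Frame
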