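/-
GATE-S (S33) / FRAME², node [L3-COORD] (helper87): the three coordinate contracts of the abstract disc
frame `GS/Frame/Vocab.lean` from `DiscFacts`:

* `coordSmall`  : `CoordSmall Φ n`  from (F2) `param_lt_one`;
* `coordInj`    : `CoordInj Φ n`    from (F4) `disc_inj`;
* `coordUnique` : `CoordUnique Φ n` from (F10) `finrank_eq_one` + rigidity (`eq_of_principal_sub'`:
  two linearly equivalent effective divisors one of which has `l = 1` are equal — the frame-free
  core of `GH/L/Coord.eq_of_principal_sub`) + disjointness of the discs.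

Generic layer (L3): no `RedData`, no special-fibre function field.
-/
import Mathlib
import Fermat.Agent.GS.Frame.Vocab
import Fermat.Agent.GH.L.Coord

set_option autoImplicit false

noncomputable section

open AlgebraicCurve Module

namespace Fermat.Agent.GS.Frame

open Fermat.Agent.RRh45 Fermat.Agent.GJ.S37MinDiv Fermat.Agent.S24 Fermat.Agent.GH Fermat.Agent.GH.L

variable {K F k Sp 𝒬 : Type*} [Field K] [Field F] [Algebra K F] [Field k]
  [CommRing Sp] [Algebra k Sp]

/-- **rigidity** (frame-free): two linearly equivalent effective divisors, one of which has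
`l = 1`, are equal. -/
theorem eq_of_principal_sub' {D D' : Divisor K F} (hD : 0 ≤ D) (hD' : 0 ≤ D')
    (h1 : finrank K (riemannRochSpace D') = 1) (hp : Divisor.IsPrincipal (D - D')) : D = D' := by
  obtain ⟨h, hh0, hh⟩ := hp
  have hmem : h ∈ riemannRochSpace D' := by
    rw [mem_riemannRochSpace_iff]
    intro P
    right
    have h2 := hh P
    rw [Finsupp.sub_apply] at h2
    have h3 := Finsupp.le_def.mp hD P
    simp only [Finsupp.coe_zero, Pi.zero_apply] at h3
    omega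
  have hone : (1 : F) ∈ riemannRochSpace D' := one_mem_riemannRochSpace hD'
  have hone' : (⟨1, hone⟩ : riemannRochSpace D') ≠ 0 :=
    fun h0 => one_ne_zero (congrArg Subtype.val h0)
  obtain ⟨a, ha⟩ := (finrank_eq_one_iff_of_nonzero' _ hone').mp h1 ⟨h, hmem⟩
  have hha : h = algebraMap K F a := by
    have := congrArg Subtype.val ha
    simpa [Algebra.smul_def] using this.symm
  have ha0 : a ≠ 0 := by
    rintro rfl
    rw [map_zero] at hha
    exact hh0 hha
  have hzero : D - D' = 0 := by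
    ext P
    rw [hh P, hha, PlaceB.ord_algebraMap P ha0]
    rfl
  exact sub_eq_zero.mp hzero

variable {Φ : DiscData K F k Sp 𝒬}

/-- **(F2) ⟹ `CoordSmall`**: coordinates lie in the maximal ideal of `A`. -/
theorem coordSmall (hΦ : DiscFacts Φ) (n : ℕ) : CoordSmall Φ n := by
  rintro 𝔠 ξ τ ⟨Pτ, hP, hv, -⟩ i
  exact hΦ.param_lt_one (𝔠.pt i) (Pτ i) (hP i) (τ i) (hv i)

/-- the points of a coordinate presentation are determined by the coordinates. -/
theorem isCoord_points_unique (hΦ : DiscFacts Φ) {n : ℕ} (𝔠 : Chart Φ n) {τ : Fin n → K}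
    {Pτ Pτ' : Fin n → Place K F} (hP : ∀ i, Pτ i ∈ Φ.disc (𝔠.Q i))
    (hP' : ∀ i, Pτ' i ∈ Φ.disc (𝔠.Q i)) (hv : ∀ i, ValueAt (Pτ i) (𝔠.pt i).t (τ i))
    (hv' : ∀ i, ValueAt (Pτ' i) (𝔠.pt i).t (τ i)) : Pτ = Pτ' :=
  funext fun i => hΦ.disc_inj (𝔠.pt i) (τ i) (Pτ i) (Pτ' i) (hP i) (hP' i) (hv i) (hv' i)

/-- **(F4) ⟹ `CoordInj`**: the class is determined by its coordinates. -/
theorem coordInj (hΦ : DiscFacts Φ) (n : ℕ) : CoordInj Φ n := by
  rintro 𝔠 ξ ξ' τ ⟨Pτ, hP, hv, hdeg, hmk⟩ ⟨Pτ', hP', hv', hdeg', hmk'⟩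
  have hpts := isCoord_points_unique hΦ 𝔠 hP hP' hv hv'
  subst hpts
  exact hmk.symm.trans hmk'

/-- a family of points, one in each disc of an injective family of special points, is determined by
its sum. -/
theorem points_eq_of_sum_eq {n : ℕ} {Q : Fin n → 𝒬} (hQ : Function.Injective Q)
    {X X' : Fin n → Place K F} (hX : ∀ i, X i ∈ Φ.disc (Q i)) (hX' : ∀ i, X' i ∈ Φ.disc (Q i))
    (h : (∑ i, Finsupp.single (X' i) (1 : ℤ)) = ∑ i, Finsupp.single (X i) (1 : ℤ)) :
    ∀ i, X i = X' i := by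
  intro i
  have h1 := sum_single_apply_pos X i
  rw [← h] at h1
  obtain ⟨j, hj⟩ := exists_eq_of_sum_single_apply_pos X' (P₀ := X i) (by omega)
  have hji : j = i := by
    by_contra hne
    have hQne : Q j ≠ Q i := fun hq => hne (hQ hq)
    exact Φ.disc_disjoint hQne (X' j) (hX' j) (hj ▸ hX i)
  rw [← hj, hji]

/-- **(F10) ⟹ `CoordUnique`**: coordinates are unique. -/
theorem coordUnique (hΦ : DiscFacts Φ) (n : ℕ) : CoordUnique Φ n := by
  rintro 𝔠 ξ τ τ' ⟨Pτ, hP, hv, hdeg, hmk⟩ ⟨Pτ', hP', hv', hdeg', hmk'⟩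
  have heq := hmk.trans hmk'.symm
  have hprin := (QuotientAddGroup.eq).mp heq
  rw [AddSubgroup.mem_addSubgroupOf, AddSubgroup.coe_add, AddSubgroup.coe_neg] at hprin
  have hprin' : Divisor.IsPrincipal
      ((∑ i, Finsupp.single (Pτ' i) (1 : ℤ)) - ∑ i, Finsupp.single (Pτ i) (1 : ℤ)) := by
    have he : (∑ i, Finsupp.single (Pτ' i) (1 : ℤ)) - ∑ i, Finsupp.single (Pτ i) (1 : ℤ) =
        -((∑ i, Finsupp.single (Pτ i) (1 : ℤ)) - 𝔠.D0) +
          ((∑ i, Finsupp.single (Pτ' i) (1 : ℤ)) - 𝔠.D0) := by abel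
    rw [he]
    exact hprin
  have h1 := hΦ.finrank_eq_one 𝔠.Q 𝔠.hQ 𝔠.hns Pτ hP
  have hDD := eq_of_principal_sub' (sum_single_nonneg' Pτ') (sum_single_nonneg' Pτ) h1 hprin'
  have hpts := points_eq_of_sum_eq (Φ := Φ) 𝔠.hQ hP hP' hDD
  funext i
  exact valueAt_unique (hv i) (by rw [hpts i]; exact hv' i)

/-- the three coordinate contracts at once. -/
theorem coord_contracts (hΦ : DiscFacts Φ) (n : ℕ) :
    CoordUnique Φ n ∧ CoordSmall Φ n ∧ CoordInj Φ n :=
  ⟨coordUnique hΦ n, coordSmall hΦ n, coordInj hΦ n⟩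

end Fermat.Agent.GS.Frame
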