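/-
GATE-S (S33) / FRAME², generic layer, seat [L3-PIC] (helper33): the Pic0 line of ADD over the
abstract disc frame `Φ : DiscData K F k Sp 𝒬` (port of `GH/Add/PicLine.lean` and
`GH/Add/PicLine2.lean`; pure divisor algebra, the only fact consumed is "all places of the generic
fibre have degree one", i.e. `DiscFacts.degF`).

The two determinant steps of the addition produce two principal divisors
  `D1 = (Σ[Pa i] - D0^𝔞) + (Σ[Pb i] - D0^𝔟) + (Σ[G1 j] - D0^𝔡)`   (step 1),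
  `D2 = (Σ[G1 j] - D0^𝔡) + (Σ[E k] - D0^𝔠)`                        (step 2).
Hence `[Σ E - D0^𝔠] = [Σ Pa - D0^𝔞] + [Σ Pb - D0^𝔟]` in `Pic0`, i.e. the coordinates of `E` are
coordinates of the sum in the chart `𝔠`.

* `chartClass hdeg 𝔠 Pτ`        : the class `[Σ Pτ i - D0]`.
* `isCoord_chartClass`, `IsCoord.exists_chartClass` : `IsCoord` through `chartClass`.
* `chartClass_add_eq`            : flexible form (two principal divisors with difference `A+B-C`).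
* `isCoord_add_of_principal(')`  : the line for the divisors `D1`, `D2` above.
* `chartClass_add_eq_of_ord`, `isCoord_add_of_ord` : in the output spelling of a `divBook`.
* `chartClass_add_eq_of_step`, `isCoord_add_of_step(_elim)` : in the `IsPrincipal` spelling of STEP.
* `sumQ`, `sumPt`, `sumQ_injective`, `sumQ_ne`, `chartQ_ne` : packaging of the step-1 data over
  `Fin n ⊕ Fin n`.
-/
import Mathlib
import Fermat.Agent.GS.Frame.Vocab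

set_option autoImplicit false
set_option linter.unusedSectionVars false

noncomputable section

open AlgebraicCurve

namespace Fermat.Agent.GS.Frame.PicLine

open Fermat.Agent.RRh45 Fermat.Agent.GH Fermat.Agent.GS.Frame

open scoped Classical

variable {K F k Sp 𝒬 : Type*} [Field K] [Field F] [Algebra K F] [Field k]
  [CommRing Sp] [Algebra k Sp]

variable {Φ : DiscData K F k Sp 𝒬} {n : ℕ}

/-- the degree of a sum of points of degree one is their number. -/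
theorem degree_sum_single_one (hdeg : ∀ P : Place K F, P.deg = 1) {ι : Type*} [Fintype ι]
    (P : ι → Place K F) :
    Divisor.degree (∑ i, Finsupp.single (P i) (1 : ℤ)) = Fintype.card ι := by
  rw [map_sum]
  have : ∀ i ∈ Finset.univ, Divisor.degree (Finsupp.single (P i) (1 : ℤ)) = 1 := fun i _ => by
    rw [Divisor.degree_single, hdeg (P i)]; norm_num
  rw [Finset.sum_congr rfl this]
  simp

/-- `Σ [Pτ i] - D0` has degree zero. -/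
theorem sum_sub_D0_mem_degZero (hdeg : ∀ P : Place K F, P.deg = 1) (𝔠 : Chart Φ n)
    (Pτ : Fin n → Place K F) :
    (∑ i, Finsupp.single (Pτ i) (1 : ℤ)) - 𝔠.D0 ∈ Divisor.degZero (K := K) (F := F) := by
  rw [Divisor.mem_degZero, map_sub, Chart.D0, degree_sum_single_one hdeg,
    degree_sum_single_one hdeg, sub_self]

/-- the class `[Σ Pτ i - D0]` of a family of points. -/
def chartClass (hdeg : ∀ P : Place K F, P.deg = 1) (𝔠 : Chart Φ n) (Pτ : Fin n → Place K F) :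
    Pic0 K F :=
  Pic0.mk ⟨_, sum_sub_D0_mem_degZero hdeg 𝔠 Pτ⟩

/-- `IsCoord` through `chartClass`. -/
theorem isCoord_chartClass (hdeg : ∀ P : Place K F, P.deg = 1) (𝔠 : Chart Φ n)
    (Pτ : Fin n → Place K F) (τ : Fin n → K)
    (hP : ∀ i, Pτ i ∈ Φ.disc (𝔠.Q i)) (hV : ∀ i, ValueAt (Pτ i) (𝔠.pt i).t (τ i)) :
    IsCoord 𝔠 (chartClass hdeg 𝔠 Pτ) τ :=
  ⟨Pτ, hP, hV, sum_sub_D0_mem_degZero hdeg 𝔠 Pτ, rfl⟩

/-- every `IsCoord` is of the form `chartClass`. -/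
theorem IsCoord.exists_chartClass (hdeg : ∀ P : Place K F, P.deg = 1) {𝔠 : Chart Φ n}
    {ξ : Pic0 K F} {τ : Fin n → K} (h : IsCoord 𝔠 ξ τ) :
    ∃ Pτ : Fin n → Place K F, (∀ i, Pτ i ∈ Φ.disc (𝔠.Q i)) ∧
      (∀ i, ValueAt (Pτ i) (𝔠.pt i).t (τ i)) ∧ ξ = chartClass hdeg 𝔠 Pτ := by
  obtain ⟨Pτ, hP, hV, hdeg', hξ⟩ := h
  exact ⟨Pτ, hP, hV, hξ.symm⟩

/-- equality in `Pic0` from a principal difference. -/
theorem pic0_mk_eq_of_principal {D D' : Divisor.degZero (K := K) (F := F)}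
    (h : Divisor.IsPrincipal ((D' : Divisor K F) - (D : Divisor K F))) :
    Pic0.mk D = Pic0.mk D' := by
  unfold Pic0.mk
  rw [QuotientAddGroup.eq, AddSubgroup.mem_addSubgroupOf]
  have : ((-D + D' : Divisor.degZero (K := K) (F := F)) : Divisor K F)
      = (D' : Divisor K F) - (D : Divisor K F) := by
    push_cast; abel
  rw [this]
  exact h

/-- **the Pic0 line of ADD**, flexible form: two principal divisors whose difference is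
`A + B - C` with `A = Σ[Pa] - D0^𝔞`, `B = Σ[Pb] - D0^𝔟`, `C = Σ[E] - D0^𝔠`. -/
theorem chartClass_add_eq (hdeg : ∀ P : Place K F, P.deg = 1) {𝔞 𝔟 𝔠 : Chart Φ n}
    (Pa Pb E : Fin n → Place K F)
    {D1 D2 : Divisor K F} (h1 : Divisor.IsPrincipal D1) (h2 : Divisor.IsPrincipal D2)
    (hD : D1 - D2 = ((∑ i, Finsupp.single (Pa i) (1 : ℤ)) - 𝔞.D0)
      + ((∑ i, Finsupp.single (Pb i) (1 : ℤ)) - 𝔟.D0)
      - ((∑ i, Finsupp.single (E i) (1 : ℤ)) - 𝔠.D0)) :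
    chartClass hdeg 𝔞 Pa + chartClass hdeg 𝔟 Pb = chartClass hdeg 𝔠 E := by
  unfold chartClass
  rw [← Pic0.mk_add]
  refine (pic0_mk_eq_of_principal ?_).symm
  have h3 : Divisor.IsPrincipal (D1 - D2) :=
    (Divisor.principal (K := K) (F := F)).sub_mem h1 h2
  rw [hD] at h3
  convert h3 using 1
  rfl

/-- **the Pic0 line of ADD**: the output `E` of the second step carries the coordinates of the
sum in the chart `𝔠`. -/
theorem isCoord_add_of_principal (hdeg : ∀ P : Place K F, P.deg = 1) {𝔞 𝔟 𝔡 𝔠 : Chart Φ n}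
    (Pa Pb G1 E : Fin n → Place K F)
    (ε : Fin n → K) (hE : ∀ i, E i ∈ Φ.disc (𝔠.Q i)) (hε : ∀ i, ValueAt (E i) (𝔠.pt i).t (ε i))
    (h1 : Divisor.IsPrincipal
      ((((∑ i, Finsupp.single (Pa i) (1 : ℤ)) - 𝔞.D0)
        + ((∑ i, Finsupp.single (Pb i) (1 : ℤ)) - 𝔟.D0))
        + ((∑ i, Finsupp.single (G1 i) (1 : ℤ)) - 𝔡.D0)))
    (h2 : Divisor.IsPrincipal
      (((∑ i, Finsupp.single (G1 i) (1 : ℤ)) - 𝔡.D0)
        + ((∑ i, Finsupp.single (E i) (1 : ℤ)) - 𝔠.D0))) :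
    IsCoord 𝔠 (chartClass hdeg 𝔞 Pa + chartClass hdeg 𝔟 Pb) ε := by
  rw [chartClass_add_eq hdeg (𝔞 := 𝔞) (𝔟 := 𝔟) (𝔠 := 𝔠) Pa Pb E h1 h2 (by abel)]
  exact isCoord_chartClass hdeg 𝔠 E ε hE hε

/-- the same with the classes given through `IsCoord` witnesses. -/
theorem isCoord_add_of_principal' (hdeg : ∀ P : Place K F, P.deg = 1) {𝔞 𝔟 𝔡 𝔠 : Chart Φ n}
    (Pa Pb G1 E : Fin n → Place K F)
    (ε : Fin n → K) {ξ η : Pic0 K F} (hξ : ξ = chartClass hdeg 𝔞 Pa)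
    (hη : η = chartClass hdeg 𝔟 Pb)
    (hE : ∀ i, E i ∈ Φ.disc (𝔠.Q i)) (hε : ∀ i, ValueAt (E i) (𝔠.pt i).t (ε i))
    (h1 : Divisor.IsPrincipal
      ((((∑ i, Finsupp.single (Pa i) (1 : ℤ)) - 𝔞.D0)
        + ((∑ i, Finsupp.single (Pb i) (1 : ℤ)) - 𝔟.D0))
        + ((∑ i, Finsupp.single (G1 i) (1 : ℤ)) - 𝔡.D0)))
    (h2 : Divisor.IsPrincipal
      (((∑ i, Finsupp.single (G1 i) (1 : ℤ)) - 𝔡.D0)
        + ((∑ i, Finsupp.single (E i) (1 : ℤ)) - 𝔠.D0))) :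
    IsCoord 𝔠 (ξ + η) ε := by
  rw [hξ, hη]
  exact isCoord_add_of_principal hdeg (𝔡 := 𝔡) Pa Pb G1 E ε hE hε h1 h2

/-- splitting a sum over `Fin n ⊕ Fin n` of point differences (the index type of step 1). -/
theorem sum_sumType_single_sub (Pa Pb Pa0 Pb0 : Fin n → Place K F) :
    (∑ i : Fin n ⊕ Fin n, (Finsupp.single (Sum.elim Pa Pb i) (1 : ℤ)
        - Finsupp.single (Sum.elim Pa0 Pb0 i) (1 : ℤ)) : Divisor K F)
      = ((∑ i, Finsupp.single (Pa i) (1 : ℤ)) - ∑ i, Finsupp.single (Pa0 i) (1 : ℤ))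
        + ((∑ i, Finsupp.single (Pb i) (1 : ℤ)) - ∑ i, Finsupp.single (Pb0 i) (1 : ℤ)) := by
  rw [Fintype.sum_sum_type]
  simp only [Sum.elim_inl, Sum.elim_inr, Finset.sum_sub_distrib]

/-- a divisor given pointwise by the orders of a nonzero function is principal. -/
theorem isPrincipal_of_ord {D : Divisor K F} {h : F} (hh : h ≠ 0)
    (hD : ∀ P : Place K F, D P = P.ord h) : Divisor.IsPrincipal D :=
  ⟨h, hh, hD⟩

/-- the Pic0 line, `IsPrincipal` spelling, general moved points `Pin` and centres `cin` on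
`Fin n ⊕ Fin n`. -/
theorem chartClass_add_eq_of_step (hdeg : ∀ P : Place K F, P.deg = 1) {𝔞 𝔟 𝔡 𝔠 : Chart Φ n}
    (Pin cin : Fin n ⊕ Fin n → Place K F) (G1 E : Fin n → Place K F)
    (hcl : ∀ i, cin (Sum.inl i) = (𝔞.pt i).P) (hcr : ∀ i, cin (Sum.inr i) = (𝔟.pt i).P)
    (h1 : Divisor.IsPrincipal
      ((∑ i, Finsupp.single (Pin i) (1 : ℤ) - ∑ i, Finsupp.single (cin i) (1 : ℤ))
        + (∑ j, Finsupp.single (G1 j) (1 : ℤ) - 𝔡.D0)))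
    (h2 : Divisor.IsPrincipal
      ((∑ i, Finsupp.single (G1 i) (1 : ℤ) - ∑ i, Finsupp.single (𝔡.pt i).P (1 : ℤ))
        + (∑ j, Finsupp.single (E j) (1 : ℤ) - 𝔠.D0))) :
    chartClass hdeg 𝔞 (fun i => Pin (Sum.inl i)) + chartClass hdeg 𝔟 (fun i => Pin (Sum.inr i))
      = chartClass hdeg 𝔠 E := by
  refine chartClass_add_eq hdeg (𝔞 := 𝔞) (𝔟 := 𝔟) (𝔠 := 𝔠) _ _ E h1 h2 ?_
  rw [Fintype.sum_sum_type, Fintype.sum_sum_type]
  simp only [hcl, hcr, Chart.D0]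
  abel

/-- **the Pic0 line of ADD in the output spelling of a `divBook`**: step 1 with index
type `Fin n ⊕ Fin n` (moved points `Pin`, centres `cin`), step 2 with index type `Fin n`. -/
theorem chartClass_add_eq_of_ord (hdeg : ∀ P : Place K F, P.deg = 1) {𝔞 𝔟 𝔡 𝔠 : Chart Φ n}
    (Pin cin : Fin n ⊕ Fin n → Place K F)
    (G1 E : Fin n → Place K F) {h h' : F} (hh : h ≠ 0) (hh' : h' ≠ 0)
    (hcl : ∀ i, cin (Sum.inl i) = (𝔞.pt i).P) (hcr : ∀ i, cin (Sum.inr i) = (𝔟.pt i).P)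
    (h1 : ∀ P : Place K F,
      ((∑ i, Finsupp.single (Pin i) (1 : ℤ) - ∑ i, Finsupp.single (cin i) (1 : ℤ))
        + (∑ j, Finsupp.single (G1 j) (1 : ℤ) - 𝔡.D0)) P = P.ord h)
    (h2 : ∀ P : Place K F,
      ((∑ i, Finsupp.single (G1 i) (1 : ℤ) - ∑ i, Finsupp.single (𝔡.pt i).P (1 : ℤ))
        + (∑ j, Finsupp.single (E j) (1 : ℤ) - 𝔠.D0)) P = P.ord h') :
    chartClass hdeg 𝔞 (fun i => Pin (Sum.inl i)) + chartClass hdeg 𝔟 (fun i => Pin (Sum.inr i))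
      = chartClass hdeg 𝔠 E :=
  chartClass_add_eq_of_step hdeg (𝔞 := 𝔞) (𝔟 := 𝔟) (𝔡 := 𝔡) (𝔠 := 𝔠) Pin cin G1 E hcl hcr
    (isPrincipal_of_ord hh h1) (isPrincipal_of_ord hh' h2)

/-- the same as an `IsCoord` statement for given classes `ξ`, `η`. -/
theorem isCoord_add_of_ord (hdeg : ∀ P : Place K F, P.deg = 1) {𝔞 𝔟 𝔡 𝔠 : Chart Φ n}
    (Pin cin : Fin n ⊕ Fin n → Place K F)
    (G1 E : Fin n → Place K F) (ε : Fin n → K) {ξ η : Pic0 K F} {h h' : F} (hh : h ≠ 0)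
    (hh' : h' ≠ 0)
    (hξ : ξ = chartClass hdeg 𝔞 (fun i => Pin (Sum.inl i)))
    (hη : η = chartClass hdeg 𝔟 (fun i => Pin (Sum.inr i)))
    (hE : ∀ i, E i ∈ Φ.disc (𝔠.Q i)) (hε : ∀ i, ValueAt (E i) (𝔠.pt i).t (ε i))
    (hcl : ∀ i, cin (Sum.inl i) = (𝔞.pt i).P) (hcr : ∀ i, cin (Sum.inr i) = (𝔟.pt i).P)
    (h1 : ∀ P : Place K F,
      ((∑ i, Finsupp.single (Pin i) (1 : ℤ) - ∑ i, Finsupp.single (cin i) (1 : ℤ))
        + (∑ j, Finsupp.single (G1 j) (1 : ℤ) - 𝔡.D0)) P = P.ord h)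
    (h2 : ∀ P : Place K F,
      ((∑ i, Finsupp.single (G1 i) (1 : ℤ) - ∑ i, Finsupp.single (𝔡.pt i).P (1 : ℤ))
        + (∑ j, Finsupp.single (E j) (1 : ℤ) - 𝔠.D0)) P = P.ord h') :
    IsCoord 𝔠 (ξ + η) ε := by
  rw [hξ, hη, chartClass_add_eq_of_ord hdeg (𝔞 := 𝔞) (𝔟 := 𝔟) (𝔡 := 𝔡) (𝔠 := 𝔠) Pin cin G1 E hh
    hh' hcl hcr h1 h2]
  exact isCoord_chartClass hdeg 𝔠 E ε hE hε

/-- **the Pic0 line of ADD from the two STEP outputs** (`IsPrincipal` spelling). -/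
theorem isCoord_add_of_step (hdeg : ∀ P : Place K F, P.deg = 1) {𝔞 𝔟 𝔡 𝔠 : Chart Φ n}
    (Pin cin : Fin n ⊕ Fin n → Place K F)
    (G1 E : Fin n → Place K F) (ε : Fin n → K) {ξ η : Pic0 K F}
    (hξ : ξ = chartClass hdeg 𝔞 (fun i => Pin (Sum.inl i)))
    (hη : η = chartClass hdeg 𝔟 (fun i => Pin (Sum.inr i)))
    (hE : ∀ i, E i ∈ Φ.disc (𝔠.Q i)) (hε : ∀ i, ValueAt (E i) (𝔠.pt i).t (ε i))
    (hcl : ∀ i, cin (Sum.inl i) = (𝔞.pt i).P) (hcr : ∀ i, cin (Sum.inr i) = (𝔟.pt i).P)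
    (h1 : Divisor.IsPrincipal
      ((∑ i, Finsupp.single (Pin i) (1 : ℤ) - ∑ i, Finsupp.single (cin i) (1 : ℤ))
        + (∑ j, Finsupp.single (G1 j) (1 : ℤ) - 𝔡.D0)))
    (h2 : Divisor.IsPrincipal
      ((∑ i, Finsupp.single (G1 i) (1 : ℤ) - ∑ i, Finsupp.single (𝔡.pt i).P (1 : ℤ))
        + (∑ j, Finsupp.single (E j) (1 : ℤ) - 𝔠.D0))) :
    IsCoord 𝔠 (ξ + η) ε := by
  rw [hξ, hη, chartClass_add_eq_of_step hdeg (𝔞 := 𝔞) (𝔟 := 𝔟) (𝔡 := 𝔡) (𝔠 := 𝔠) Pin cin G1 E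
    hcl hcr h1 h2]
  exact isCoord_chartClass hdeg 𝔠 E ε hE hε

/-- the same with `Pin = Sum.elim Pa Pb`. -/
theorem isCoord_add_of_step_elim (hdeg : ∀ P : Place K F, P.deg = 1) {𝔞 𝔟 𝔡 𝔠 : Chart Φ n}
    (Pa Pb : Fin n → Place K F)
    (cin : Fin n ⊕ Fin n → Place K F)
    (G1 E : Fin n → Place K F) (ε : Fin n → K) {ξ η : Pic0 K F}
    (hξ : ξ = chartClass hdeg 𝔞 Pa) (hη : η = chartClass hdeg 𝔟 Pb)
    (hE : ∀ i, E i ∈ Φ.disc (𝔠.Q i)) (hε : ∀ i, ValueAt (E i) (𝔠.pt i).t (ε i))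
    (hcl : ∀ i, cin (Sum.inl i) = (𝔞.pt i).P) (hcr : ∀ i, cin (Sum.inr i) = (𝔟.pt i).P)
    (h1 : Divisor.IsPrincipal
      ((∑ i, Finsupp.single (Sum.elim Pa Pb i) (1 : ℤ) - ∑ i, Finsupp.single (cin i) (1 : ℤ))
        + (∑ j, Finsupp.single (G1 j) (1 : ℤ) - 𝔡.D0)))
    (h2 : Divisor.IsPrincipal
      ((∑ i, Finsupp.single (G1 i) (1 : ℤ) - ∑ i, Finsupp.single (𝔡.pt i).P (1 : ℤ))
        + (∑ j, Finsupp.single (E j) (1 : ℤ) - 𝔠.D0))) :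
    IsCoord 𝔠 (ξ + η) ε :=
  isCoord_add_of_step hdeg (𝔞 := 𝔞) (𝔟 := 𝔟) (𝔡 := 𝔡) (𝔠 := 𝔠) (Sum.elim Pa Pb) cin G1 E ε hξ hη
    hE hε hcl hcr h1 h2

/-- packaging of the step-1 data: special points of `𝔞` and `𝔟` over `Fin n ⊕ Fin n`. -/
def sumQ (𝔞 𝔟 : Chart Φ n) : Fin n ⊕ Fin n → 𝒬 := Sum.elim 𝔞.Q 𝔟.Q

/-- the chart points of `𝔞 ⊔ 𝔟`. -/
def sumPt (𝔞 𝔟 : Chart Φ n) : ∀ i : Fin n ⊕ Fin n, CPt Φ (sumQ 𝔞 𝔟 i)
  | Sum.inl i => 𝔞.pt i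
  | Sum.inr i => 𝔟.pt i

@[simp] theorem sumPt_inl (𝔞 𝔟 : Chart Φ n) (i : Fin n) : sumPt 𝔞 𝔟 (Sum.inl i) = 𝔞.pt i := rfl

@[simp] theorem sumPt_inr (𝔞 𝔟 : Chart Φ n) (i : Fin n) : sumPt 𝔞 𝔟 (Sum.inr i) = 𝔟.pt i := rfl

/-- `sumQ` is injective when the supports are disjoint. -/
theorem sumQ_injective {𝔞 𝔟 : Chart Φ n} (hab : Disjoint 𝔞.supp 𝔟.supp) :
    Function.Injective (sumQ 𝔞 𝔟) := by
  have hne : ∀ i j, 𝔞.Q i ≠ 𝔟.Q j := fun i j h =>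
    Set.disjoint_left.mp hab ⟨i, rfl⟩ ⟨j, h.symm⟩
  rintro (i | i) (j | j) h
  · exact congrArg Sum.inl (𝔞.hQ h)
  · exact absurd h (hne i j)
  · exact absurd h.symm (hne j i)
  · exact congrArg Sum.inr (𝔟.hQ h)

/-- the special points of `𝔞 ⊔ 𝔟` avoid those of a chart disjoint from both. -/
theorem sumQ_ne {𝔞 𝔟 𝔡 : Chart Φ n} (had : Disjoint 𝔞.supp 𝔡.supp) (hbd : Disjoint 𝔟.supp 𝔡.supp)
    (i : Fin n ⊕ Fin n) (j : Fin n) : sumQ 𝔞 𝔟 i ≠ 𝔡.Q j := by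
  rcases i with i | i
  · exact fun h => Set.disjoint_left.mp had ⟨i, rfl⟩ ⟨j, h.symm⟩
  · exact fun h => Set.disjoint_left.mp hbd ⟨i, rfl⟩ ⟨j, h.symm⟩

/-- the special points of a chart avoid those of a disjoint chart. -/
theorem chartQ_ne {𝔡 𝔠 : Chart Φ n} (hdc : Disjoint 𝔡.supp 𝔠.supp) (i j : Fin n) :
    𝔡.Q i ≠ 𝔠.Q j :=
  fun h => Set.disjoint_left.mp hdc ⟨i, rfl⟩ ⟨j, h.symm⟩

end Fermat.Agent.GS.Frame.PicLine
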