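/-
GATE-S (S33) / FRAME², generic layer, seat [L3-PIC] (helper33): piece (R0) over the abstract disc
frame `Φ : DiscData K F k Sp 𝒬` (port of `GH/Add/Reduce.lean`): reduction of `AddSpec` to families
whose coordinates separate the index set.

* `IsCoord.class_unique` : the class is determined by its coordinates, from (F4) `disc_inj`;
  `coordInj_of_discInj`, `coordInj_of_facts : DiscFacts Φ → CoordInj Φ n`.
* `AddSpecInj Φ n`       : `AddSpec` restricted to families `z ↦ (τ z, σ z)` that are injective.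
* `addSpec_of_injective` : `CoordInj Φ n → CoordUnique Φ n → AddSpecInj Φ n → AddSpec Φ n`
  (pure quotient / pull-back argument, no fact of the frame is consumed).
-/
import Mathlib
import Fermat.Agent.GS.Frame.Vocab

set_option autoImplicit false
set_option linter.unusedSectionVars false

noncomputable section

open AlgebraicCurve

namespace Fermat.Agent.GS.Frame.R0

open Fermat.Agent.RRh45 Fermat.Agent.GH Fermat.Agent.GS.Frame

open scoped Classical

variable {K F k Sp 𝒬 : Type*} [Field K] [Field F] [Algebra K F] [Field k]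
  [CommRing Sp] [Algebra k Sp]

variable {Φ : DiscData K F k Sp 𝒬} {n : ℕ}

/-- the class is determined by the coordinates, from the disc-injectivity (F4) alone. -/
theorem IsCoord.class_unique
    (hinj : ∀ {Q : 𝒬} (pt : CPt Φ Q) (a : K) (P P' : Place K F), P ∈ Φ.disc Q → P' ∈ Φ.disc Q →
      ValueAt P pt.t a → ValueAt P' pt.t a → P = P')
    {𝔠 : Chart Φ n} {ξ ξ' : Pic0 K F}
    {τ : Fin n → K} (h : IsCoord 𝔠 ξ τ) (h' : IsCoord 𝔠 ξ' τ) : ξ = ξ' := by
  obtain ⟨Pτ, hP, hV, hdeg, hξ⟩ := h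
  obtain ⟨Pτ', hP', hV', hdeg', hξ'⟩ := h'
  have hPP : Pτ = Pτ' := funext fun i =>
    hinj (𝔠.pt i) (τ i) (Pτ i) (Pτ' i) (hP i) (hP' i) (hV i) (hV' i)
  subst hPP
  rw [← hξ, ← hξ']

/-- the contract `CoordInj` from the disc-injectivity (F4). -/
theorem coordInj_of_discInj
    (hinj : ∀ {Q : 𝒬} (pt : CPt Φ Q) (a : K) (P P' : Place K F), P ∈ Φ.disc Q → P' ∈ Φ.disc Q →
      ValueAt P pt.t a → ValueAt P' pt.t a → P = P') (n : ℕ) : CoordInj Φ n :=
  fun _ _ _ _ h h' => IsCoord.class_unique hinj h h'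

/-- the contract `CoordInj` from the facts of the frame. -/
theorem coordInj_of_facts (hF : DiscFacts Φ) (n : ℕ) : CoordInj Φ n :=
  coordInj_of_discInj (fun pt a P P' => hF.disc_inj pt a P P') n

/-- `AddSpec` for families whose pair of coordinate vectors separates the index set. -/
def AddSpecInj (Φ : DiscData K F k Sp 𝒬) (n : ℕ) : Prop :=
  ∀ (𝔞 𝔟 𝔠 : Chart Φ n), Disjoint 𝔞.supp 𝔟.supp → Disjoint 𝔞.supp 𝔠.supp →
    Disjoint 𝔟.supp 𝔠.supp →
    ∀ (Z : Type) [Finite Z] (ξ η : Z → Pic0 K F) (τ σ μ : Z → Fin n → K),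
      Function.Injective (fun z => (τ z, σ z)) →
      (∀ z, IsCoord 𝔞 (ξ z) (τ z)) → (∀ z, IsCoord 𝔟 (η z) (σ z)) →
      (∀ z, IsCoord 𝔠 (ξ z + η z) (μ z)) →
      ∀ j, (fun z => μ z j) ∈
        Algebra.adjoin Φ.A ({f : Z → K | ∃ i, f = fun z => τ z i} ∪ {f | ∃ i, f = fun z => σ z i})

/-- `AddSpec` implies its restriction to separating families. -/
theorem addSpecInj_of_addSpec (h : AddSpec Φ n) : AddSpecInj Φ n :=
  fun 𝔞 𝔟 𝔠 hab hac hbc Z _ ξ η τ σ μ _ hξ hη hμ j =>
    h 𝔞 𝔟 𝔠 hab hac hbc Z ξ η τ σ μ hξ hη hμ j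

/-- pull-back of functions along a map of index sets, as an algebra homomorphism. -/
def pullAlg (A : ValuationSubring K) {Z Z' : Type} (π : Z → Z') : (Z' → K) →ₐ[A] (Z → K) :=
  AlgHom.pi fun z => Pi.evalAlgHom A (fun _ : Z' => K) (π z)

@[simp]
theorem pullAlg_apply (A : ValuationSubring K) {Z Z' : Type} (π : Z → Z') (f : Z' → K) (z : Z) :
    pullAlg A π f z = f (π z) := rfl

/-- **(R0)**: `AddSpec` follows from its restriction to separating families, given that classes are
determined by their coordinates (`CoordInj`) and coordinates by the class (`CoordUnique`). -/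
theorem addSpec_of_injective (hcls : CoordInj Φ n) (hU : CoordUnique Φ n)
    (hA : AddSpecInj Φ n) : AddSpec Φ n := by
  intro 𝔞 𝔟 𝔠 hab hac hbc Z _ ξ η τ σ μ hξ hη hμ j
  classical
  -- the quotient of `Z` by the kernel of `z ↦ (τ z, σ z)`
  set f : Z → (Fin n → K) × (Fin n → K) := fun z => (τ z, σ z) with hf
  let S : Setoid Z := Setoid.ker f
  let Z' : Type := Quotient S
  let π : Z → Z' := Quotient.mk S
  let s : Z' → Z := Quotient.out
  have hsπ : ∀ z, f (s (π z)) = f z := fun z => by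
    have : s (π z) ≈ z := Quotient.exact (Quotient.out_eq (π z))
    exact this
  have hτs : ∀ z, τ (s (π z)) = τ z := fun z => congrArg Prod.fst (hsπ z)
  have hσs : ∀ z, σ (s (π z)) = σ z := fun z => congrArg Prod.snd (hsπ z)
  have hinj' : Function.Injective (fun z' : Z' => (τ (s z'), σ (s z'))) := by
    intro a b hab'
    have h1 : s a ≈ s b := hab'
    have h2 : π (s a) = π (s b) := Quotient.sound h1
    have ha : π (s a) = a := Quotient.out_eq a
    have hb : π (s b) = b := Quotient.out_eq b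
    rw [ha, hb] at h2
    exact h2
  -- the classes only depend on the coordinates
  have hξs : ∀ z, ξ (s (π z)) = ξ z := fun z =>
    hcls 𝔞 _ _ (τ z) (by rw [← hτs z]; exact hξ (s (π z))) (hξ z)
  have hηs : ∀ z, η (s (π z)) = η z := fun z =>
    hcls 𝔟 _ _ (σ z) (by rw [← hσs z]; exact hη (s (π z))) (hη z)
  have hμs : ∀ z, μ (s (π z)) = μ z := fun z => by
    have h1 : IsCoord 𝔠 (ξ z + η z) (μ (s (π z))) := by
      rw [← hξs z, ← hηs z]; exact hμ (s (π z))
    exact hU 𝔠 (ξ z + η z) _ _ h1 (hμ z)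
  have key := hA 𝔞 𝔟 𝔠 hab hac hbc Z' (fun z' => ξ (s z')) (fun z' => η (s z'))
    (fun z' => τ (s z')) (fun z' => σ (s z')) (fun z' => μ (s z')) hinj'
    (fun z' => hξ (s z')) (fun z' => hη (s z')) (fun z' => hμ (s z')) j
  -- pull back along `π`
  have hmem : pullAlg Φ.A π (fun z' => μ (s z') j) ∈
      (Algebra.adjoin Φ.A ({f : Z' → K | ∃ i, f = fun z' => τ (s z') i} ∪
        {f | ∃ i, f = fun z' => σ (s z') i})).map (pullAlg Φ.A π) :=
    Subalgebra.mem_map.mpr ⟨_, key, rfl⟩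
  rw [AlgHom.map_adjoin] at hmem
  have hfun : pullAlg Φ.A π (fun z' => μ (s z') j) = fun z => μ z j :=
    funext fun z => by rw [pullAlg_apply, hμs z]
  rw [hfun] at hmem
  refine Algebra.adjoin_mono ?_ hmem
  rintro _ ⟨f', hf', rfl⟩
  rcases hf' with ⟨i, rfl⟩ | ⟨i, rfl⟩
  · exact Or.inl ⟨i, funext fun z => by rw [pullAlg_apply, hτs z]⟩
  · exact Or.inr ⟨i, funext fun z => by rw [pullAlg_apply, hσs z]⟩

end Fermat.Agent.GS.Frame.R0
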