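/-
GATE-S (S33) / FRAME², generic layer, seat [L3-PIC] (helper33): the assembly `AddSpec` from the
STEP lemma over the abstract disc frame `Φ : DiscData K F k Sp 𝒬` (port of
`GH/Add/MainOfStep.lean`).

`StepSpec Φ n` is the statement of the STEP lemma ([L3-ADD], port of `GH/Add/Step.lean`) as a
contract: input chart points over pairwise distinct special points, an output chart off them, a
`Φ.A`-valued point-separating algebra `B` of functions on a finite set `Z` containing the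
coordinates of moved input points; output: moved points of the output discs with coordinates in
`B` such that (moved input - input centres) + (moved output - output centres) is principal.

`addSpec_of_step : (∀ P, P.deg = 1) → StepSpec Φ n → ChartSupply Φ n → CoordUnique Φ n →
  CoordSmall Φ n → CoordInj Φ n → AddSpec Φ n`:
a fourth chart from `ChartSupply`, STEP twice (`𝔞 ⊔ 𝔟 → 𝔡`, then `𝔡 → 𝔠`), the Pic0 line
(`GS/Frame/Gen/PicLine.lean`), uniqueness of coordinates, and the reduction (R0) to separating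
families (`GS/Frame/Gen/Reduce.lean`).  `addSpec_of_step_facts` takes `DiscFacts Φ` instead of the
degree hypothesis and derives `CoordInj` from (F4).
-/
import Mathlib
import Fermat.Agent.GS.Frame.Gen.Reduce
import Fermat.Agent.GS.Frame.Gen.PicLine

set_option autoImplicit false
set_option linter.unusedSectionVars false

noncomputable section

open AlgebraicCurve

namespace Fermat.Agent.GS.Frame.Asm

open Fermat.Agent.RRh45 Fermat.Agent.GH Fermat.Agent.GS.Frame Fermat.Agent.GS.Frame.R0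
  Fermat.Agent.GS.Frame.PicLine

open scoped Classical

variable {K F k Sp 𝒬 : Type*} [Field K] [Field F] [Algebra K F] [Field k]
  [CommRing Sp] [Algebra k Sp]

/-- CONTRACT: the STEP lemma of node ADD over the abstract disc frame. -/
def StepSpec (Φ : DiscData K F k Sp 𝒬) (n : ℕ) : Prop :=
  ∀ (ι : Type) [Fintype ι] [DecidableEq ι] (Qin : ι → 𝒬)
    (pin : ∀ i, CPt Φ (Qin i)) (𝔬 : Chart Φ n),
    Function.Injective Qin → (∀ i j, Qin i ≠ 𝔬.Q j) →
    ∀ (Z : Type) [Finite Z] (B : Subalgebra Φ.A (Z → K)),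
      (∀ f ∈ B, ∀ z, f z ∈ Φ.A) → (∀ z z' : Z, z ≠ z' → ∃ f ∈ B, f z ≠ f z') →
      ∀ (Pin : Z → ι → Place K F) (α : Z → ι → K),
        (∀ z i, Pin z i ∈ Φ.disc (Qin i)) → (∀ z i, ValueAt (Pin z i) (pin i).t (α z i)) →
        (∀ i, (fun z => α z i) ∈ B) →
        ∃ (Pout : Z → Fin n → Place K F) (ε : Z → Fin n → K),
          (∀ z j, Pout z j ∈ Φ.disc (𝔬.Q j)) ∧
          (∀ z j, ValueAt (Pout z j) (𝔬.pt j).t (ε z j)) ∧
          (∀ j, (fun z => ε z j) ∈ B) ∧
          ∀ z, Divisor.IsPrincipal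
            ((∑ i, Finsupp.single (Pin z i) (1 : ℤ) - ∑ i, Finsupp.single (pin i).P (1 : ℤ))
              + (∑ j, Finsupp.single (Pout z j) (1 : ℤ) - 𝔬.D0))

variable {Φ : DiscData K F k Sp 𝒬} {n : ℕ}

/-- an algebra generated by `A`-valued functions is `A`-valued. -/
theorem adjoin_valued (A : ValuationSubring K) {Z : Type} (S : Set (Z → K))
    (hS : ∀ f ∈ S, ∀ z, f z ∈ A) : ∀ f ∈ Algebra.adjoin A S, ∀ z, f z ∈ A := by
  intro f hf
  induction hf using Algebra.adjoin_induction with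
  | mem x hx => exact hS x hx
  | algebraMap r => intro z; exact r.2
  | add x y _ _ hx hy => intro z; exact A.add_mem _ _ (hx z) (hy z)
  | mul x y _ _ hx hy => intro z; exact A.mul_mem _ _ (hx z) (hy z)

/-- a chart off three given charts is disjoint from them (the fourth chart of ADD). -/
theorem exists_fourth_chart (hS : ChartSupply Φ n) (𝔞 𝔟 𝔠 : Chart Φ n) :
    ∃ 𝔡 : Chart Φ n, Disjoint 𝔞.supp 𝔡.supp ∧ Disjoint 𝔟.supp 𝔡.supp ∧
      Disjoint 𝔡.supp 𝔠.supp := by
  classical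
  obtain ⟨𝔡, h𝔡⟩ := hS (Finset.univ.image 𝔞.Q ∪ Finset.univ.image 𝔟.Q ∪ Finset.univ.image 𝔠.Q)
  refine ⟨𝔡, ?_, ?_, ?_⟩
  · rw [Set.disjoint_left]
    rintro _ ⟨i, rfl⟩ ⟨j, hj⟩
    exact h𝔡 j (by
      rw [hj]
      exact Finset.mem_union_left _ (Finset.mem_union_left _
        (Finset.mem_image_of_mem _ (Finset.mem_univ i))))
  · rw [Set.disjoint_left]
    rintro _ ⟨i, rfl⟩ ⟨j, hj⟩
    exact h𝔡 j (by
      rw [hj]
      exact Finset.mem_union_left _ (Finset.mem_union_right _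
        (Finset.mem_image_of_mem _ (Finset.mem_univ i))))
  · rw [Set.disjoint_left]
    rintro _ ⟨j, rfl⟩ ⟨i, hi⟩
    exact h𝔡 j (by
      rw [← hi]
      exact Finset.mem_union_right _ (Finset.mem_image_of_mem _ (Finset.mem_univ i)))

/-- **ADD, separating families**, from the STEP contract. -/
theorem addSpecInj_of_step (hdeg : ∀ P : Place K F, P.deg = 1) (hstep : StepSpec Φ n)
    (hS : ChartSupply Φ n) (hU : CoordUnique Φ n) (hSm : CoordSmall Φ n) :
    AddSpecInj Φ n := by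
  intro 𝔞 𝔟 𝔠 hab hac hbc Z _ ξ η τ σ μ hinj hξ hη hμ j
  classical
  -- a fourth chart off the three supports
  obtain ⟨𝔡, had, hbd, hdc⟩ := exists_fourth_chart hS 𝔞 𝔟 𝔠
  -- the points behind the coordinates
  choose Pa hPa hVa hξa using fun z => IsCoord.exists_chartClass hdeg (hξ z)
  choose Pb hPb hVb hηb using fun z => IsCoord.exists_chartClass hdeg (hη z)
  -- the coordinate algebra
  set S : Set (Z → K) :=
    {f : Z → K | ∃ i, f = fun z => τ z i} ∪ {f | ∃ i, f = fun z => σ z i} with hSdef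
  set B : Subalgebra Φ.A (Z → K) := Algebra.adjoin Φ.A S with hB
  have hτA : ∀ z i, τ z i ∈ Φ.A := fun z i =>
    (Φ.A.valuation_le_one_iff _).mp (hSm 𝔞 (ξ z) (τ z) (hξ z) i).le
  have hσA : ∀ z i, σ z i ∈ Φ.A := fun z i =>
    (Φ.A.valuation_le_one_iff _).mp (hSm 𝔟 (η z) (σ z) (hη z) i).le
  have hvalB : ∀ f ∈ B, ∀ z, f z ∈ Φ.A := by
    refine adjoin_valued Φ.A S ?_
    rintro f (⟨i, rfl⟩ | ⟨i, rfl⟩) z
    · exact hτA z i
    · exact hσA z i
  have hτB : ∀ i, (fun z => τ z i) ∈ B := fun i =>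
    Algebra.subset_adjoin (Or.inl ⟨i, rfl⟩)
  have hσB : ∀ i, (fun z => σ z i) ∈ B := fun i =>
    Algebra.subset_adjoin (Or.inr ⟨i, rfl⟩)
  have hsepB : ∀ z z' : Z, z ≠ z' → ∃ f ∈ B, f z ≠ f z' := by
    intro z z' hzz'
    have hne : (τ z, σ z) ≠ (τ z', σ z') := fun h => hzz' (hinj h)
    by_cases hτ : τ z = τ z'
    · have hσ : σ z ≠ σ z' := fun h => hne (by rw [hτ, h])
      obtain ⟨i, hi⟩ := Function.ne_iff.mp hσ
      exact ⟨_, hσB i, hi⟩
    · obtain ⟨i, hi⟩ := Function.ne_iff.mp hτ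
      exact ⟨_, hτB i, hi⟩
  -- STEP 1 : `𝔞 ⊔ 𝔟 → 𝔡`
  obtain ⟨G1, ς, hG1, hVς, hςB, hpr1⟩ := hstep (Fin n ⊕ Fin n) (sumQ 𝔞 𝔟) (sumPt 𝔞 𝔟) 𝔡
    (sumQ_injective hab) (sumQ_ne had hbd) Z B hvalB hsepB
    (fun z => Sum.elim (Pa z) (Pb z)) (fun z => Sum.elim (τ z) (σ z))
    (by
      rintro z (i | i)
      · exact hPa z i
      · exact hPb z i)
    (by
      rintro z (i | i)
      · exact hVa z i
      · exact hVb z i)
    (by
      rintro (i | i)
      · exact hτB i
      · exact hσB i)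
  -- STEP 2 : `𝔡 → 𝔠`
  obtain ⟨E, ε, hE, hVε, hεB, hpr2⟩ := hstep (Fin n) 𝔡.Q 𝔡.pt 𝔠 𝔡.hQ (chartQ_ne hdc) Z B hvalB
    hsepB G1 ς hG1 hVς hςB
  -- the Pic0 line and uniqueness of coordinates
  have hco : ∀ z, IsCoord 𝔠 (ξ z + η z) (ε z) := fun z =>
    isCoord_add_of_step_elim hdeg (𝔞 := 𝔞) (𝔟 := 𝔟) (𝔡 := 𝔡) (𝔠 := 𝔠) (Pa z) (Pb z)
      (fun i => (sumPt 𝔞 𝔟 i).P) (G1 z) (E z) (ε z) (hξa z) (hηb z) (hE z) (hVε z)
      (fun _ => rfl) (fun _ => rfl) (hpr1 z) (hpr2 z)
  have hμε : ∀ z, μ z = ε z := fun z => hU 𝔠 (ξ z + η z) _ _ (hμ z) (hco z)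
  have : (fun z => μ z j) = fun z => ε z j := funext fun z => by rw [hμε z]
  rw [this]
  exact hεB j

/-- **ADD** from the STEP contract and the three coordinate contracts. -/
theorem addSpec_of_step (hdeg : ∀ P : Place K F, P.deg = 1) (hstep : StepSpec Φ n)
    (hS : ChartSupply Φ n) (hU : CoordUnique Φ n) (hSm : CoordSmall Φ n) (hI : CoordInj Φ n) :
    AddSpec Φ n :=
  addSpec_of_injective hI hU (addSpecInj_of_step hdeg hstep hS hU hSm)

/-- **ADD** from the STEP contract, `CoordUnique`, `CoordSmall` and the facts of the frame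
(`CoordInj` comes from (F4)). -/
theorem addSpec_of_step_facts (hF : DiscFacts Φ) (hstep : StepSpec Φ n)
    (hS : ChartSupply Φ n) (hU : CoordUnique Φ n) (hSm : CoordSmall Φ n) : AddSpec Φ n :=
  addSpec_of_step hF.degF hstep hS hU hSm (coordInj_of_facts hF n)

/-- the FRAME² target in contract form: STEP and the coordinate contracts give the whole package
`AddSpec ∧ CoordUnique ∧ CoordSmall ∧ CoordInj`. -/
theorem frame_target_of_step (hF : DiscFacts Φ) (hstep : StepSpec Φ n)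
    (hS : ChartSupply Φ n) (hU : CoordUnique Φ n) (hSm : CoordSmall Φ n) :
    AddSpec Φ n ∧ CoordUnique Φ n ∧ CoordSmall Φ n ∧ CoordInj Φ n :=
  ⟨addSpec_of_step_facts hF hstep hS hU hSm, hU, hSm, coordInj_of_facts hF n⟩

end Fermat.Agent.GS.Frame.Asm
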