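/-
GATE-S (S33) / FRAME², generic layer, node [L3-ADD] file 2 (helper92): the STEP lemma over an
abstract disc frame (`GS/Frame/Vocab.lean`).  Port of `GH/Add/Step.lean`; the pure algebra
(`exists_coeff`, `trunc_le`) and the closure device are REUSED from `GH/Add/Step.lean` and
`GH/Closure/Device.lean`.

Data: input chart points `pin i : CPt Φ (Qin i)` (`i : ι`, any finite index type) over pairwise
distinct special points, an output chart `𝔬 : Chart Φ n` over special points different from all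
`Qin i`; `𝔄 := Σ_i [centre of pin i] + 𝔬.D0`.  For a finite family (indexed by `Z`) of points
`Pin z i` of the input discs whose parameters `α z i` lie in an `A`-valued separating subalgebra
`S ⊆ (Z → K)`, there are points `Pout z j` of the output discs, with parameters `ε z j`, such that
`ε_j ∈ S` and `Σ_i ([Pin z i] - [centre_i]) + Σ_j ([Pout z j] - [centre'_j])` is principal.
-/
import Mathlib
import Fermat.Agent.GS.Frame.Gen.DivBook
import Fermat.Agent.GH.Add.Step

set_option autoImplicit false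

noncomputable section

open AlgebraicCurve

namespace Fermat.Agent.GS.Frame

open Fermat.Agent.RRh45 Fermat.Agent.GH Fermat.Agent.GH.Closure
open Fermat.Agent.GH.Add (valueAt_add valueAt_sum valueAt_const_mul valueAt_unique exists_coeff
  trunc_le)

open scoped Classical

variable {K F k Sp 𝒬 : Type*} [Field K] [Field F] [Algebra K F] [Field k]
  [CommRing Sp] [Algebra k Sp]

variable {Φ : DiscData K F k Sp 𝒬}

/-- sections of `L(𝔄) ∩ B` whose evaluation matrix at ANY points of the input discs has unit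
determinant. -/
def HasSections (Φ : DiscData K F k Sp 𝒬) {ι : Type*} [Fintype ι] [DecidableEq ι] {n : ℕ}
    {Qin : ι → 𝒬} (pin : ∀ i, CPt Φ (Qin i)) (𝔬 : Chart Φ n) : Prop :=
  ∃ e : ι → F,
    (∀ j, e j ∈ riemannRochSpace (∑ i, Finsupp.single (pin i).P (1 : ℤ) + 𝔬.D0)) ∧
    (∀ j, e j ∈ Φ.B) ∧
    ∀ X : ι → Place K F, (∀ i, X i ∈ Φ.disc (Qin i)) → ∀ N : Matrix ι ι K,
      (∀ i j, ValueAt (X i) ((pin i).t * e j) (N i j)) → Φ.A.valuation N.det = 1

/-! ### pole bounds from membership in `L(𝔄)` -/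

section PoleBounds

variable {ι : Type*} [Fintype ι] {n : ℕ}
  {Qin : ι → 𝒬} (pin : ∀ i, CPt Φ (Qin i)) (𝔬 : Chart Φ n)
  (hQin : Function.Injective Qin) (hdisj : ∀ i j, Qin i ≠ 𝔬.Q j)

include hQin hdisj in
theorem pole_bound_in {e : F}
    (hL : e ∈ riemannRochSpace (∑ i, Finsupp.single (pin i).P (1 : ℤ) + 𝔬.D0)) (he : e ≠ 0)
    (i : ι) : ∀ P ∈ Φ.disc (Qin i), -(if P = (pin i).P then 1 else 0) ≤ P.ord e := by
  intro P hP
  have h1 := (mem_riemannRochSpace_iff.mp hL P).resolve_left he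
  have hnot : ∀ j, P ∉ Φ.disc (𝔬.Q j) := fun j => Φ.disc_disjoint (hdisj i j) P hP
  rw [Finsupp.add_apply, Chart.D0,
    sum_single_apply_of_mem hQin (fun i => (pin i).hP) hP,
    sum_single_apply_of_notMem (fun j => (𝔬.pt j).hP) hnot, add_zero] at h1
  exact h1

include hdisj in
theorem pole_bound_out {e : F}
    (hL : e ∈ riemannRochSpace (∑ i, Finsupp.single (pin i).P (1 : ℤ) + 𝔬.D0)) (he : e ≠ 0)
    (j : Fin n) : ∀ P ∈ Φ.disc (𝔬.Q j), -(if P = (𝔬.pt j).P then 1 else 0) ≤ P.ord e := by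
  intro P hP
  have h1 := (mem_riemannRochSpace_iff.mp hL P).resolve_left he
  have hnot : ∀ i, P ∉ Φ.disc (Qin i) := fun i => Φ.disc_disjoint (hdisj i j).symm P hP
  rw [Finsupp.add_apply, Chart.D0,
    sum_single_apply_of_notMem (fun i => (pin i).hP) hnot,
    sum_single_apply_of_mem 𝔬.hQ (fun j => (𝔬.pt j).hP) hP, zero_add] at h1
  exact h1

end PoleBounds

/-- a function of `B` with at most a simple pole at the centre of a chart point, and no other pole
on its disc, becomes disc-regular after multiplication by the parameter. -/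
theorem mul_mem_Odisc {Q : 𝒬} (pt : CPt Φ Q) {e : F} (heB : e ∈ Φ.B)
    (hpole : e ≠ 0 → ∀ P ∈ Φ.disc Q, -(if P = pt.P then 1 else 0) ≤ P.ord e) :
    pt.t * e ∈ Odisc Φ Q := by
  refine ⟨Φ.B.mul_mem pt.ht.1 heB, fun P hP => ?_⟩
  rcases eq_or_ne e 0 with rfl | he
  · rw [mul_zero]; exact P.toValuationSubring.zero_mem
  rcases eq_or_ne pt.t 0 with ht0 | ht0
  · rw [ht0, zero_mul]; exact P.toValuationSubring.zero_mem
  rw [mem_iff_ord_nonneg P (mul_ne_zero ht0 he), P.ord_mul ht0 he]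
  have h1 : 0 ≤ P.ord pt.t := (mem_iff_ord_nonneg P ht0).mp (pt.ht.2 P hP)
  have h2 := hpole he P hP
  by_cases hPP : P = pt.P
  · rw [if_pos hPP] at h2
    have h3 : 0 < P.ord pt.t := by
      rw [hPP]
      exact ((valueAt_zero_iff pt.P pt.t).mp pt.ht0).resolve_left ht0
    omega
  · rw [if_neg hPP] at h2
    omega

/-! ### small constants reduce to zero -/

theorem algebraMap_mem_B {a : K} (ha : a ∈ Φ.A) : algebraMap K F a ∈ Φ.B := (Φ.mem_A_iff a).1 ha

theorem red_algebraMap_eq_zero {a : K} (ha : a ∈ Φ.A) (hlt : Φ.A.valuation a < 1) :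
    Φ.red ⟨algebraMap K F a, algebraMap_mem_B ha⟩ = 0 := by
  have h1 := Φ.red_algebraMap ⟨a, ha⟩
  rw [(Φ.res_eq_zero_iff ⟨a, ha⟩).mpr hlt, map_zero] at h1
  exact h1

/-! ### the interpolating function `1 + Σ a_j e_j` -/

section Interp

variable {ι : Type*} [Fintype ι] {n : ℕ}
  {Qin : ι → 𝒬} (pin : ∀ i, CPt Φ (Qin i)) (𝔬 : Chart Φ n)

theorem stepDiv_nonneg :
    (0 : Divisor K F) ≤ ∑ i, Finsupp.single (pin i).P (1 : ℤ) + 𝔬.D0 := by
  refine add_nonneg (Finset.sum_nonneg fun i _ => Finsupp.single_nonneg.mpr zero_le_one) ?_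
  rw [Chart.D0]
  exact Finset.sum_nonneg fun i _ => Finsupp.single_nonneg.mpr zero_le_one

variable {e : ι → F}
  (heL : ∀ j, e j ∈ riemannRochSpace (∑ i, Finsupp.single (pin i).P (1 : ℤ) + 𝔬.D0))
  (heB : ∀ j, e j ∈ Φ.B) {a : ι → K} (haA : ∀ j, a j ∈ Φ.A)
  (halt : ∀ j, Φ.A.valuation (a j) < 1)

include heL in
theorem interp_mem_L :
    (1 + ∑ j, algebraMap K F (a j) * e j)
      ∈ riemannRochSpace (∑ i, Finsupp.single (pin i).P (1 : ℤ) + 𝔬.D0) := by
  refine Submodule.add_mem _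
    (Fermat.Agent.GJ.S37MinDiv.one_mem_riemannRochSpace (stepDiv_nonneg pin 𝔬))
    (Submodule.sum_mem _ fun j _ => ?_)
  rw [← Algebra.smul_def]
  exact Submodule.smul_mem _ _ (heL j)

include heB haA in
theorem interp_mem_B : (1 + ∑ j, algebraMap K F (a j) * e j) ∈ Φ.B :=
  Φ.B.add_mem Φ.B.one_mem
    (sum_mem fun j _ => Φ.B.mul_mem (algebraMap_mem_B (haA j)) (heB j))

include halt in
theorem interp_red :
    Φ.red ⟨1 + ∑ j, algebraMap K F (a j) * e j, interp_mem_B heB haA⟩ = 1 := by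
  have : (⟨1 + ∑ j, algebraMap K F (a j) * e j, interp_mem_B heB haA⟩ : Φ.B)
      = 1 + ∑ j, (⟨algebraMap K F (a j), algebraMap_mem_B (haA j)⟩ : Φ.B) * ⟨e j, heB j⟩ := by
    apply Subtype.ext
    simp
  rw [this, map_add, map_one, map_sum]
  rw [Finset.sum_eq_zero, add_zero]
  intro j _
  rw [map_mul, red_algebraMap_eq_zero (haA j) (halt j), zero_mul]

end Interp

/-! ### Part B: the parameter of the moving zero lies in the coordinate algebra -/

/-- **moving zero**: `h_z = 1 + Σ_l a_l(z) e_l` with coefficient functions `a_l ∈ S`, `𝔪`-valued;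
`t e_l` disc-regular; `Pout z` a point of the disc where `t h_z` vanishes.  Then the parameter
`z ↦ t (Pout z)` lies in `S`. -/
theorem root_param_mem (hΦ : DiscFacts Φ)
    (harch : ∀ x y : K, Φ.A.valuation x < 1 → y ≠ 0 →
      ∃ m : ℕ, Φ.A.valuation x ^ m ≤ Φ.A.valuation y)
    {Q : 𝒬} (pt : CPt Φ Q) {ι : Type*} [Fintype ι]
    {e : ι → F} (hψ : ∀ l, pt.t * e l ∈ Odisc Φ Q)
    {Z : Type*} [Finite Z] (S : Subalgebra Φ.A (Z → K))
    (hval : ∀ f ∈ S, ∀ z, f z ∈ Φ.A) (hsep : ∀ z z', z ≠ z' → ∃ f ∈ S, f z ≠ f z')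
    {a : Z → ι → K} (haS : ∀ l, (fun z => a z l) ∈ S)
    (halt : ∀ z l, Φ.A.valuation (a z l) < 1)
    {Pout : Z → Place K F} (hPout : ∀ z, Pout z ∈ Φ.disc Q)
    (hzero : ∀ z, ValueAt (Pout z) (pt.t * (1 + ∑ l, algebraMap K F (a z l) * e l)) 0)
    {ε : Z → K} (hε : ∀ z, ValueAt (Pout z) pt.t (ε z)) : ε ∈ S := by
  have hεlt : ∀ z, Φ.A.valuation (ε z) < 1 := fun z => hΦ.param_lt_one pt _ (hPout z) _ (hε z)
  refine root_mem Φ.A S hval hsep harch hεlt fun m => ?_
  obtain ⟨m', hm', hm2⟩ : ∃ m', m ≤ m' ∧ 2 ≤ m' := ⟨max m 2, le_max_left _ _, le_max_right _ _⟩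
  choose γ hγA hγ using fun l => hΦ.taylor pt (hψ l) m'
  choose w hwA hw using fun z l => hΦ.exists_value (hψ l) (Pout z) (hPout z)
  let cS : ℕ → S := fun i =>
    (if i = 1 then 1 else 0) +
      ∑ l, (⟨fun z => a z l, haS l⟩ : S) * ⟨fun _ => γ l i, const_mem Φ.A S (hγA l i)⟩
  have hcS : ∀ i z, (cS i : Z → K) z = (if i = 1 then 1 else 0) + ∑ l, a z l * γ l i := by
    intro i z
    show ((cS i : S) : Z → K) z = _
    simp only [cS]
    by_cases hi : i = 1
    · simp [hi, Finset.sum_apply]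
    · simp [hi, Finset.sum_apply]
  have hcle : ∀ i z, Φ.A.valuation ((cS i : Z → K) z) ≤ 1 := fun i z =>
    (Φ.A.valuation_le_one_iff _).mpr (hval _ (cS i).2 z)
  have hsum_lt : ∀ z i, Φ.A.valuation (∑ l, a z l * γ l i) < 1 := fun z i => by
    refine Valuation.map_sum_lt _ one_ne_zero fun l _ => ?_
    rw [map_mul]
    have : Φ.A.valuation (γ l i) ≤ 1 := (Φ.A.valuation_le_one_iff _).mpr (hγA l i)
    calc _ ≤ Φ.A.valuation (a z l) * 1 := by gcongr
      _ < 1 := by rw [mul_one]; exact halt z l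
  refine ⟨fun i => (cS i : Z → K), fun i => (cS i).2, fun z => ?_, fun z => ?_⟩
  · show Φ.A.valuation ((cS 1 : Z → K) z) = 1
    rw [hcS 1 z, if_pos rfl]
    exact Valuation.map_one_add_of_lt _ (hsum_lt z 1)
  · show Φ.A.valuation (∑ i ∈ Finset.range m, (cS i : Z → K) z * ε z ^ i)
      ≤ Φ.A.valuation (ε z) ^ m
    refine trunc_le Φ.A.valuation (fun i => hcle i z) (hεlt z).le hm' ?_
    have h1 : pt.t * (1 + ∑ l, algebraMap K F (a z l) * e l)
        = pt.t + ∑ l, algebraMap K F (a z l) * (pt.t * e l) := by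
      rw [mul_add, mul_one, Finset.mul_sum]
      congr 1
      exact Finset.sum_congr rfl fun l _ => by ring
    have h2 : ValueAt (Pout z) (pt.t + ∑ l, algebraMap K F (a z l) * (pt.t * e l))
        (ε z + ∑ l, a z l * w z l) :=
      valueAt_add (hε z) (valueAt_sum _ _ _ fun l _ => valueAt_const_mul (a z l) (hw z l))
    have h3 : ε z + ∑ l, a z l * w z l = 0 := by
      have := hzero z
      rw [h1] at this
      exact valueAt_unique h2 this
    have h4 : ∑ i ∈ Finset.range m', (cS i : Z → K) z * ε z ^ i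
        = -∑ l, a z l * (w z l - ∑ i ∈ Finset.range m', γ l i * ε z ^ i) := by
      have h5 : ∑ i ∈ Finset.range m', (cS i : Z → K) z * ε z ^ i
          = ε z + ∑ l, a z l * ∑ i ∈ Finset.range m', γ l i * ε z ^ i := by
        simp only [hcS, add_mul, Finset.sum_add_distrib]
        congr 1
        · rw [Finset.sum_eq_single 1]
          · simp
          · intro i _ hi; rw [if_neg hi, zero_mul]
          · intro h; exact absurd (Finset.mem_range.mpr (by omega)) h
        · simp only [Finset.sum_mul, Finset.mul_sum]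
          rw [Finset.sum_comm]
          refine Finset.sum_congr rfl fun l _ => Finset.sum_congr rfl fun i _ => by ring
      rw [h5]
      have h6 : ∑ l, a z l * (w z l - ∑ i ∈ Finset.range m', γ l i * ε z ^ i)
          = ∑ l, a z l * w z l - ∑ l, a z l * ∑ i ∈ Finset.range m', γ l i * ε z ^ i := by
        rw [← Finset.sum_sub_distrib]
        exact Finset.sum_congr rfl fun l _ => by ring
      rw [h6]
      linear_combination h3
    rw [h4, Valuation.map_neg]
    refine Valuation.map_sum_le _ fun l _ => ?_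
    rw [map_mul]
    have := hγ l (Pout z) (hPout z) (ε z) (w z l) (hε z) (hw z l)
    calc _ ≤ 1 * Φ.A.valuation (ε z) ^ m' := by
          gcongr
          exact (halt z l).le
      _ = _ := one_mul _

/-! ### the STEP lemma -/

/-- **STEP** (node ADD, used twice) over an abstract disc frame. -/
theorem step (hΦ : DiscFacts Φ)
    (harch : ∀ x y : K, Φ.A.valuation x < 1 → y ≠ 0 →
      ∃ m : ℕ, Φ.A.valuation x ^ m ≤ Φ.A.valuation y)
    {ι : Type*} [Fintype ι] [DecidableEq ι] {n : ℕ}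
    {Qin : ι → 𝒬} (pin : ∀ i, CPt Φ (Qin i)) (𝔬 : Chart Φ n)
    (hQin : Function.Injective Qin) (hdisj : ∀ i j, Qin i ≠ 𝔬.Q j)
    (hsec : HasSections Φ pin 𝔬)
    {Z : Type*} [Finite Z] (S : Subalgebra Φ.A (Z → K))
    (hval : ∀ f ∈ S, ∀ z, f z ∈ Φ.A) (hsep : ∀ z z', z ≠ z' → ∃ f ∈ S, f z ≠ f z')
    {Pin : Z → ι → Place K F} (hPin : ∀ z i, Pin z i ∈ Φ.disc (Qin i))
    {α : Z → ι → K} (hα : ∀ z i, ValueAt (Pin z i) (pin i).t (α z i))
    (hαS : ∀ i, (fun z => α z i) ∈ S) :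
    ∃ (Pout : Z → Fin n → Place K F) (ε : Z → Fin n → K),
      (∀ z j, Pout z j ∈ Φ.disc (𝔬.Q j)) ∧ (∀ z j, ValueAt (Pout z j) (𝔬.pt j).t (ε z j)) ∧
      (∀ j, (fun z => ε z j) ∈ S) ∧
      ∀ z, Divisor.IsPrincipal
        ((∑ i, Finsupp.single (Pin z i) (1 : ℤ) - ∑ i, Finsupp.single (pin i).P (1 : ℤ))
          + (∑ j, Finsupp.single (Pout z j) (1 : ℤ) - 𝔬.D0)) := by
  obtain ⟨e, heL, heB, hdet⟩ := hsec
  have hφin : ∀ i j, (pin i).t * e j ∈ Odisc Φ (Qin i) := fun i j =>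
    mul_mem_Odisc (pin i) (heB j) fun he => pole_bound_in pin 𝔬 hQin hdisj (heL j) he i
  have hφout : ∀ j l, (𝔬.pt j).t * e l ∈ Odisc Φ (𝔬.Q j) := fun j l =>
    mul_mem_Odisc (𝔬.pt j) (heB l) fun he => pole_bound_out pin 𝔬 hdisj (heL l) he j
  choose N hNA hN using fun (z : Z) (i j : ι) =>
    hΦ.exists_value (hφin i j) (Pin z i) (hPin z i)
  have hαlt : ∀ z i, Φ.A.valuation (α z i) < 1 := fun z i =>
    hΦ.param_lt_one (pin i) _ (hPin z i) _ (hα z i)
  have hNS : ∀ i j, (fun z => N z i j) ∈ S := fun i j => by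
    refine eval_mem_const Φ.A S hval hsep harch (hαS i) (fun z => hαlt z i) fun m => ?_
    obtain ⟨γ, hγ, hγP⟩ := hΦ.taylor (pin i) (hφin i j) m
    exact ⟨γ, hγ, fun z => hγP _ (hPin z i) _ _ (hα z i) (hN z i j)⟩
  have hdetN : ∀ z, Φ.A.valuation (Matrix.of (N z)).det = 1 := fun z =>
    hdet (Pin z) (hPin z) _ fun i j => hN z i j
  obtain ⟨a, haS, halt, haN⟩ := exists_coeff Φ.A S hval hNS hdetN hαS hαlt
  have haA : ∀ z j, a z j ∈ Φ.A := fun z j => hval _ (haS j) z
  have hzero : ∀ z i, ValueAt (Pin z i)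
      ((pin i).t * (1 + ∑ j, algebraMap K F (a z j) * e j)) 0 := fun z i => by
    have h1 : (pin i).t * (1 + ∑ j, algebraMap K F (a z j) * e j)
        = (pin i).t + ∑ j, algebraMap K F (a z j) * ((pin i).t * e j) := by
      rw [mul_add, mul_one, Finset.mul_sum]
      congr 1
      exact Finset.sum_congr rfl fun l _ => by ring
    rw [h1, ← haN z i]
    exact valueAt_add (hα z i)
      (valueAt_sum _ _ _ fun j _ => valueAt_const_mul (a z j) (hN z i j))
  have hbook := fun z => divBook hΦ pin 𝔬 hQin hdisj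
    (interp_mem_L pin 𝔬 heL (a := a z)) (interp_mem_B heB (haA z))
    (interp_red heB (haA z) (halt z)) (hPin z) (hzero z)
  choose Pout hPout hPoutv hord using hbook
  choose ε hεA hε using fun (z : Z) (j : Fin n) =>
    hΦ.exists_value (𝔬.pt j).ht (Pout z j) (hPout z j)
  refine ⟨Pout, ε, hPout, hε, fun j => ?_, fun z => ?_⟩
  · exact root_param_mem hΦ harch (𝔬.pt j) (hφout j) S hval hsep haS halt
      (fun z => hPout z j) (fun z => hPoutv z j) (fun z => hε z j)
  · refine ⟨1 + ∑ j, algebraMap K F (a z j) * e j, ?_, hord z⟩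
    exact ne_zero_of_red_eq_one hΦ (interp_mem_B heB (haA z)) (interp_red heB (haA z) (halt z))

end Fermat.Agent.GS.Frame
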