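/-
GATE-S (S33) / FRAME², node [L3-SEC], plug (helper37): the sections lemma
`GS/Frame/Gen/Sections.exists_sections` in the `HasSections` spelling of `GS/Frame/Gen/Step.lean`
— the `hsec` binder of `step` / of the `Main` assembly, discharged from `DiscFacts Φ`.
-/
import Mathlib
import Fermat.Agent.GS.Frame.Gen.Step
import Fermat.Agent.GS.Frame.Gen.Sections

set_option autoImplicit false

noncomputable section

open AlgebraicCurve

namespace Fermat.Agent.GS.Frame

open Fermat.Agent.RRh45 Fermat.Agent.GH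

variable {K F k Sp 𝒬 : Type*} [Field K] [Field F] [Algebra K F] [Field k]
  [CommRing Sp] [Algebra k Sp]
variable {Φ : DiscData K F k Sp 𝒬} {n : ℕ}

/-- **[L3-SEC]**: `HasSections` from the facts of the abstract disc frame (index types in `Type`,
as in `DiscFacts.const_of_small`). -/
theorem hasSections_of_facts (hΦ : DiscFacts Φ) (hn : (n : ℤ) = Φ.g) {ι : Type} [Fintype ι]
    [DecidableEq ι] {Qin : ι → 𝒬} (hQin : Function.Injective Qin)
    (pin : ∀ i, CPt Φ (Qin i)) (𝔬 : Chart Φ n) (hdisj : ∀ i j, Qin i ≠ 𝔬.Q j) :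
    HasSections Φ pin 𝔬 := by
  obtain ⟨e, heB, heL, hN⟩ := Sec.exists_sections hΦ hn hQin pin 𝔬 hdisj
  exact ⟨e, heL, heB, fun X hX N hXN => (hN X hX N hXN).2⟩

/-- the same with the integrality of the value matrix. -/
theorem hasSections_of_facts' (hΦ : DiscFacts Φ) (hn : (n : ℤ) = Φ.g) {ι : Type} [Fintype ι]
    [DecidableEq ι] {Qin : ι → 𝒬} (hQin : Function.Injective Qin)
    (pin : ∀ i, CPt Φ (Qin i)) (𝔬 : Chart Φ n) (hdisj : ∀ i j, Qin i ≠ 𝔬.Q j) :
    ∃ e : ι → F,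
      (∀ j, e j ∈ riemannRochSpace (∑ i, Finsupp.single (pin i).P (1 : ℤ) + 𝔬.D0)) ∧
      (∀ j, e j ∈ Φ.B) ∧
      ∀ X : ι → Place K F, (∀ i, X i ∈ Φ.disc (Qin i)) → ∀ N : Matrix ι ι K,
        (∀ i j, ValueAt (X i) ((pin i).t * e j) (N i j)) →
          (∀ i j, N i j ∈ Φ.A) ∧ Φ.A.valuation N.det = 1 := by
  obtain ⟨e, heB, heL, hN⟩ := Sec.exists_sections hΦ hn hQin pin 𝔬 hdisj
  exact ⟨e, heL, heB, hN⟩

end Fermat.Agent.GS.Frame
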