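/-
GATE-S (S33) / FRAME², generic layer, the MAIN assembly (helper33): the FRAME² target theorem

  `frame_target : DiscFacts Φ → (n : ℤ) = Φ.g → harch → ChartSupply Φ n →
      AddSpec Φ n ∧ CoordUnique Φ n ∧ CoordSmall Φ n ∧ CoordInj Φ n`,

binder-free over the abstract disc frame `Φ : DiscData K F k Sp 𝒬` except for the archimedean
property `harch` of the valuation of `Φ.A` (a binder of the closure device) and the supply of
charts (special-fibre geometry, INST²).

Inputs: STEP (`GS/Frame/Gen/Step.lean`, helper92), the sections lemma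
(`GS/Frame/Gen/SectionsPlug.lean`, helper37), the coordinate contracts
(`GS/Frame/Gen/Coord.lean`, helper87) and the assembly `GS/Frame/Gen/MainOfStep.lean`
(STEP twice + Pic0 line + uniqueness + reduction (R0)).

* `stepSpec_of_sections` : the STEP contract from `DiscFacts`, `harch` and a supply of sections.
* `stepSpec_main`        : the STEP contract from `DiscFacts`, `harch`, `(n : ℤ) = Φ.g`.
* `addSpec_of_sections`  : `AddSpec` with the sections and `CoordUnique`, `CoordSmall` as binders.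
* `addSpec_main`, `frame_target`.
-/
import Mathlib
import Fermat.Agent.GS.Frame.Gen.MainOfStep
import Fermat.Agent.GS.Frame.Gen.Step
import Fermat.Agent.GS.Frame.Gen.SectionsPlug
import Fermat.Agent.GS.Frame.Gen.Coord

set_option autoImplicit false
set_option linter.unusedSectionVars false

noncomputable section

open AlgebraicCurve

namespace Fermat.Agent.GS.Frame.Asm

open Fermat.Agent.RRh45 Fermat.Agent.GH Fermat.Agent.GS.Frame

variable {K F k Sp 𝒬 : Type*} [Field K] [Field F] [Algebra K F] [Field k]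
  [CommRing Sp] [Algebra k Sp]

variable {Φ : DiscData K F k Sp 𝒬} {n : ℕ}

/-- the STEP contract from the facts of the frame and a supply of sections (`hsec` as a binder). -/
theorem stepSpec_of_sections (hΦ : DiscFacts Φ)
    (harch : ∀ x y : K, Φ.A.valuation x < 1 → y ≠ 0 →
      ∃ m : ℕ, Φ.A.valuation x ^ m ≤ Φ.A.valuation y)
    (hsec : ∀ (ι : Type) [Fintype ι] [DecidableEq ι] (Qin : ι → 𝒬) (pin : ∀ i, CPt Φ (Qin i))
      (𝔬 : Chart Φ n), Function.Injective Qin → (∀ i j, Qin i ≠ 𝔬.Q j) → HasSections Φ pin 𝔬) :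
    StepSpec Φ n := by
  intro ι _ _ Qin pin 𝔬 hQin hdisj Z _ B hval hsep Pin α hPin hα hαB
  exact step hΦ harch pin 𝔬 hQin hdisj (hsec ι Qin pin 𝔬 hQin hdisj) B hval hsep hPin hα hαB

/-- the STEP contract holds on a frame of genus `n`. -/
theorem stepSpec_main (hΦ : DiscFacts Φ) (hn : (n : ℤ) = Φ.g)
    (harch : ∀ x y : K, Φ.A.valuation x < 1 → y ≠ 0 →
      ∃ m : ℕ, Φ.A.valuation x ^ m ≤ Φ.A.valuation y) : StepSpec Φ n :=
  stepSpec_of_sections hΦ harch fun _ _ _ _ pin 𝔬 hQin hdisj =>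
    hasSections_of_facts hΦ hn hQin pin 𝔬 hdisj

/-- `AddSpec` with the sections and the coordinate contracts as binders. -/
theorem addSpec_of_sections (hΦ : DiscFacts Φ)
    (harch : ∀ x y : K, Φ.A.valuation x < 1 → y ≠ 0 →
      ∃ m : ℕ, Φ.A.valuation x ^ m ≤ Φ.A.valuation y)
    (hsec : ∀ (ι : Type) [Fintype ι] [DecidableEq ι] (Qin : ι → 𝒬) (pin : ∀ i, CPt Φ (Qin i))
      (𝔬 : Chart Φ n), Function.Injective Qin → (∀ i j, Qin i ≠ 𝔬.Q j) → HasSections Φ pin 𝔬)
    (hS : ChartSupply Φ n) (hU : CoordUnique Φ n) (hSm : CoordSmall Φ n) : AddSpec Φ n :=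
  addSpec_of_step_facts hΦ (stepSpec_of_sections hΦ harch hsec) hS hU hSm

/-- **node ADD over the abstract disc frame**: the contract `AddSpec`. -/
theorem addSpec_main (hΦ : DiscFacts Φ) (hn : (n : ℤ) = Φ.g)
    (harch : ∀ x y : K, Φ.A.valuation x < 1 → y ≠ 0 →
      ∃ m : ℕ, Φ.A.valuation x ^ m ≤ Φ.A.valuation y)
    (hS : ChartSupply Φ n) : AddSpec Φ n :=
  addSpec_of_step hΦ.degF (stepSpec_main hΦ hn harch) hS (coordUnique hΦ n) (coordSmall hΦ n)
    (coordInj hΦ n)

/-- **the FRAME² target**: the four contracts consumed by LOC² / GAL-I from the facts of the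
frame, the genus equation, the archimedean property and a supply of charts. -/
theorem frame_target (hΦ : DiscFacts Φ) (hn : (n : ℤ) = Φ.g)
    (harch : ∀ x y : K, Φ.A.valuation x < 1 → y ≠ 0 →
      ∃ m : ℕ, Φ.A.valuation x ^ m ≤ Φ.A.valuation y)
    (hS : ChartSupply Φ n) :
    AddSpec Φ n ∧ CoordUnique Φ n ∧ CoordSmall Φ n ∧ CoordInj Φ n :=
  ⟨addSpec_main hΦ hn harch hS, coordUnique hΦ n, coordSmall hΦ n, coordInj hΦ n⟩

end Fermat.Agent.GS.Frame.Asm
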