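/-
GATE-S / GATE-F, generic layer over the abstract disc frame `Φ : DiscData K F k Sp 𝒬` (helper33):
**the classes having coordinates form a subgroup of `Pic0`, with coordinates in EVERY chart.**

`AddSpec` / `CoordExists` speak about classes which are GIVEN with coordinates.  The STEP lemma
(`GS/Frame/Gen/Step.lean`, contract `Asm.StepSpec`) PRODUCES coordinates: one STEP is the negation
`[Σ Pout - D0^𝔬] = -[Σ Pin - Σ centres]` into a disjoint chart.  Hence, with a supply of charts: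

* `isCoord_zero`        : `0` has coordinates `0` in every chart;
* `step_single`         : STEP for ONE family of input points (index set `Unit`);
* `exists_isCoord_neg`  : `ξ` with coordinates in `𝔞`, `𝔬` disjoint from `𝔞` ⟹ `-ξ` has
                          coordinates in `𝔬`;
* `exists_isCoord_neg_add` : `ξ` in `𝔞`, `η` in `𝔟` ⟹ `-(ξ + η)` has coordinates in `𝔡`
                          (pairwise disjoint charts);
* `exists_isCoord_add`  : ... ⟹ `ξ + η` has coordinates in `𝔠` (pairwise disjoint charts);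
* `exists_isCoord_any`  : change of chart: `ξ` with coordinates in SOME chart has coordinates in
                          ANY chart;
* `coordGroup`          : the subgroup `{ξ | ∃ 𝔠 τ, IsCoord 𝔠 ξ τ}` of `Pic0 K F`
                          (the points of the "formal group" of the frame; NOT only torsion classes);
* `coordExists_coordGroup : CoordExists Φ n (coordGroup …)`;
* `coordGroup_main`, `coordExists_main` : the same from `DiscFacts Φ`, `(n : ℤ) = Φ.g`, `harch`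
  and `ChartSupply Φ n`.
-/
import Mathlib
import Fermat.Agent.GS.Frame.Gen.Main

set_option autoImplicit false
set_option linter.unusedSectionVars false

noncomputable section

open AlgebraicCurve

namespace Fermat.Agent.GS.Frame.CoordGroup

open Fermat.Agent.RRh45 Fermat.Agent.GH Fermat.Agent.GS.Frame Fermat.Agent.GS.Frame.PicLine
  Fermat.Agent.GS.Frame.Asm

open scoped Classical

variable {K F k Sp 𝒬 : Type*} [Field K] [Field F] [Algebra K F] [Field k]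
  [CommRing Sp] [Algebra k Sp]

variable {Φ : DiscData K F k Sp 𝒬} {n : ℕ}

/-! ### `Pic0` bookkeeping -/

/-- a principal divisor of degree zero has trivial class. -/
theorem pic0_mk_eq_zero_of_principal {D : Divisor.degZero (K := K) (F := F)}
    (h : Divisor.IsPrincipal (D : Divisor K F)) : Pic0.mk D = 0 := by
  have h0 : Pic0.mk (0 : Divisor.degZero (K := K) (F := F)) = Pic0.mk D := by
    refine pic0_mk_eq_of_principal ?_
    simpa using h
  rw [← h0]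
  rfl

/-- the class of the centres is zero. -/
theorem chartClass_centres (hdeg : ∀ P : Place K F, P.deg = 1) (𝔠 : Chart Φ n) :
    chartClass hdeg 𝔠 (fun i => (𝔠.pt i).P) = 0 := by
  unfold chartClass
  refine pic0_mk_eq_zero_of_principal ?_
  have : ((∑ i, Finsupp.single (𝔠.pt i).P (1 : ℤ)) - 𝔠.D0 : Divisor K F) = 0 := by
    rw [Chart.D0, sub_self]
  show Divisor.IsPrincipal ((∑ i, Finsupp.single (𝔠.pt i).P (1 : ℤ)) - 𝔠.D0 : Divisor K F)
  rw [this]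
  exact (Divisor.principal (K := K) (F := F)).zero_mem

/-- `0` has coordinates `0` in every chart. -/
theorem isCoord_zero (hdeg : ∀ P : Place K F, P.deg = 1) (𝔠 : Chart Φ n) :
    IsCoord 𝔠 (0 : Pic0 K F) (fun _ => (0 : K)) := by
  rw [← chartClass_centres hdeg 𝔠]
  exact isCoord_chartClass hdeg 𝔠 _ _ (fun i => (𝔠.pt i).hP) (fun i => (𝔠.pt i).ht0)

/-- two chart classes with principal sum are opposite. -/
theorem chartClass_eq_neg_of_principal (hdeg : ∀ P : Place K F, P.deg = 1) {𝔞 𝔬 : Chart Φ n}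
    (Pa Po : Fin n → Place K F)
    (h : Divisor.IsPrincipal (((∑ i, Finsupp.single (Pa i) (1 : ℤ)) - 𝔞.D0)
      + ((∑ i, Finsupp.single (Po i) (1 : ℤ)) - 𝔬.D0))) :
    chartClass hdeg 𝔬 Po = - chartClass hdeg 𝔞 Pa := by
  refine eq_neg_of_add_eq_zero_right ?_
  unfold chartClass
  rw [← Pic0.mk_add]
  exact pic0_mk_eq_zero_of_principal h

/-! ### charts off given charts -/

/-- a chart off one given chart. -/
theorem exists_chart_off₁ (hS : ChartSupply Φ n) (𝔞 : Chart Φ n) :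
    ∃ 𝔡 : Chart Φ n, Disjoint 𝔞.supp 𝔡.supp := by
  obtain ⟨𝔡, h𝔡⟩ := hS (Finset.univ.image 𝔞.Q)
  refine ⟨𝔡, ?_⟩
  rw [Set.disjoint_left]
  rintro _ ⟨i, rfl⟩ ⟨j, hj⟩
  exact h𝔡 j (by rw [hj]; exact Finset.mem_image_of_mem _ (Finset.mem_univ i))

/-- a chart off two given charts. -/
theorem exists_chart_off₂ (hS : ChartSupply Φ n) (𝔞 𝔠 : Chart Φ n) :
    ∃ 𝔡 : Chart Φ n, Disjoint 𝔞.supp 𝔡.supp ∧ Disjoint 𝔡.supp 𝔠.supp := by
  obtain ⟨𝔡, h𝔡⟩ := hS (Finset.univ.image 𝔞.Q ∪ Finset.univ.image 𝔠.Q)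
  refine ⟨𝔡, ?_, ?_⟩
  · rw [Set.disjoint_left]
    rintro _ ⟨i, rfl⟩ ⟨j, hj⟩
    exact h𝔡 j (by
      rw [hj]
      exact Finset.mem_union_left _ (Finset.mem_image_of_mem _ (Finset.mem_univ i)))
  · rw [Set.disjoint_left]
    rintro _ ⟨j, rfl⟩ ⟨i, hi⟩
    exact h𝔡 j (by
      rw [← hi]
      exact Finset.mem_union_right _ (Finset.mem_image_of_mem _ (Finset.mem_univ i)))

/-! ### STEP for one family of points -/

/-- **STEP for a single family of input points** (index set `Unit`): the separation hypothesis of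
STEP is void. -/
theorem step_single (hstep : StepSpec Φ n) {ι : Type} [Fintype ι] [DecidableEq ι] {Qin : ι → 𝒬}
    (pin : ∀ i, CPt Φ (Qin i)) (𝔬 : Chart Φ n) (hQin : Function.Injective Qin)
    (hdisj : ∀ i j, Qin i ≠ 𝔬.Q j) (Pin : ι → Place K F) (α : ι → K)
    (hPin : ∀ i, Pin i ∈ Φ.disc (Qin i)) (hα : ∀ i, ValueAt (Pin i) (pin i).t (α i))
    (hαA : ∀ i, α i ∈ Φ.A) :
    ∃ (Pout : Fin n → Place K F) (ε : Fin n → K), (∀ j, Pout j ∈ Φ.disc (𝔬.Q j)) ∧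
      (∀ j, ValueAt (Pout j) (𝔬.pt j).t (ε j)) ∧
      Divisor.IsPrincipal
        ((∑ i, Finsupp.single (Pin i) (1 : ℤ) - ∑ i, Finsupp.single (pin i).P (1 : ℤ))
          + (∑ j, Finsupp.single (Pout j) (1 : ℤ) - 𝔬.D0)) := by
  set S : Set (Unit → K) := Set.range fun (i : ι) (_ : Unit) => α i with hS
  set B : Subalgebra Φ.A (Unit → K) := Algebra.adjoin Φ.A S with hB
  have hvalB : ∀ f ∈ B, ∀ z, f z ∈ Φ.A := by
    refine adjoin_valued Φ.A S ?_
    rintro f ⟨i, rfl⟩ z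
    exact hαA i
  have hsepB : ∀ z z' : Unit, z ≠ z' → ∃ f ∈ B, f z ≠ f z' := fun z z' h => absurd rfl h
  obtain ⟨Pout, ε, hPout, hε, -, hpr⟩ := hstep ι Qin pin 𝔬 hQin hdisj Unit B hvalB hsepB
    (fun _ => Pin) (fun _ => α) (fun _ i => hPin i) (fun _ i => hα i)
    (fun i => Algebra.subset_adjoin ⟨i, rfl⟩)
  exact ⟨Pout (), ε (), hPout (), hε (), hpr ()⟩

/-! ### negation, addition, change of chart -/

section Ops

variable (hdeg : ∀ P : Place K F, P.deg = 1) (hstep : StepSpec Φ n) (hSm : CoordSmall Φ n)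

include hdeg hstep hSm

/-- **negation**: one STEP. -/
theorem exists_isCoord_neg {𝔞 𝔬 : Chart Φ n} (hao : Disjoint 𝔞.supp 𝔬.supp) {ξ : Pic0 K F}
    {τ : Fin n → K} (hξ : IsCoord 𝔞 ξ τ) : ∃ ε : Fin n → K, IsCoord 𝔬 (-ξ) ε := by
  obtain ⟨Pa, hPa, hVa, rfl⟩ := IsCoord.exists_chartClass hdeg hξ
  have hτA : ∀ i, τ i ∈ Φ.A := fun i =>
    (Φ.A.valuation_le_one_iff _).mp (hSm 𝔞 _ τ hξ i).le
  obtain ⟨Po, ε, hPo, hε, hpr⟩ := step_single hstep 𝔞.pt 𝔬 𝔞.hQ (chartQ_ne hao) Pa τ hPa hVa hτA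
  refine ⟨ε, ?_⟩
  rw [← chartClass_eq_neg_of_principal hdeg (𝔞 := 𝔞) (𝔬 := 𝔬) Pa Po hpr]
  exact isCoord_chartClass hdeg 𝔬 Po ε hPo hε

/-- **minus the sum**: one STEP on `𝔞 ⊔ 𝔟`. -/
theorem exists_isCoord_neg_add {𝔞 𝔟 𝔡 : Chart Φ n} (hab : Disjoint 𝔞.supp 𝔟.supp)
    (had : Disjoint 𝔞.supp 𝔡.supp) (hbd : Disjoint 𝔟.supp 𝔡.supp) {ξ η : Pic0 K F}
    {τ σ : Fin n → K} (hξ : IsCoord 𝔞 ξ τ) (hη : IsCoord 𝔟 η σ) :
    ∃ ε : Fin n → K, IsCoord 𝔡 (-(ξ + η)) ε := by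
  obtain ⟨Pa, hPa, hVa, rfl⟩ := IsCoord.exists_chartClass hdeg hξ
  obtain ⟨Pb, hPb, hVb, rfl⟩ := IsCoord.exists_chartClass hdeg hη
  have hτA : ∀ i, τ i ∈ Φ.A := fun i =>
    (Φ.A.valuation_le_one_iff _).mp (hSm 𝔞 _ τ hξ i).le
  have hσA : ∀ i, σ i ∈ Φ.A := fun i =>
    (Φ.A.valuation_le_one_iff _).mp (hSm 𝔟 _ σ hη i).le
  obtain ⟨G, ε, hG, hε, hpr⟩ := step_single hstep (sumPt 𝔞 𝔟) 𝔡 (sumQ_injective hab)
    (sumQ_ne had hbd) (Sum.elim Pa Pb) (Sum.elim τ σ)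
    (by
      rintro (i | i)
      · exact hPa i
      · exact hPb i)
    (by
      rintro (i | i)
      · exact hVa i
      · exact hVb i)
    (by
      rintro (i | i)
      · exact hτA i
      · exact hσA i)
  refine ⟨ε, ?_⟩
  have hcls : chartClass hdeg 𝔡 G = -(chartClass hdeg 𝔞 Pa + chartClass hdeg 𝔟 Pb) := by
    refine eq_neg_of_add_eq_zero_right ?_
    unfold chartClass
    rw [← Pic0.mk_add, ← Pic0.mk_add]
    refine pic0_mk_eq_zero_of_principal ?_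
    convert hpr using 1
    rw [Fintype.sum_sum_type, Fintype.sum_sum_type]
    simp only [Sum.elim_inl, Sum.elim_inr, sumPt_inl, sumPt_inr, Chart.D0]
    push_cast
    abel
  rw [← hcls]
  exact isCoord_chartClass hdeg 𝔡 G ε hG hε

/-- **addition**: STEP twice; the sum of two classes with coordinates in disjoint charts has
coordinates in any chart disjoint from both. -/
theorem exists_isCoord_add (hS : ChartSupply Φ n) {𝔞 𝔟 𝔠 : Chart Φ n}
    (hab : Disjoint 𝔞.supp 𝔟.supp) {ξ η : Pic0 K F}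
    {τ σ : Fin n → K} (hξ : IsCoord 𝔞 ξ τ) (hη : IsCoord 𝔟 η σ) :
    ∃ ε : Fin n → K, IsCoord 𝔠 (ξ + η) ε := by
  obtain ⟨𝔡, had, hbd, hdc⟩ := exists_fourth_chart hS 𝔞 𝔟 𝔠
  obtain ⟨ς, hς⟩ := exists_isCoord_neg_add hdeg hstep hSm hab had hbd hξ hη
  obtain ⟨ε, hε⟩ := exists_isCoord_neg hdeg hstep hSm hdc hς
  exact ⟨ε, by rwa [neg_neg] at hε⟩

/-- **change of chart**: a class with coordinates in some chart has coordinates in any chart. -/
theorem exists_isCoord_any (hS : ChartSupply Φ n) {𝔞 : Chart Φ n} (𝔠 : Chart Φ n)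
    {ξ : Pic0 K F} {τ : Fin n → K} (hξ : IsCoord 𝔞 ξ τ) : ∃ ε : Fin n → K, IsCoord 𝔠 ξ ε := by
  obtain ⟨𝔡, had, hdc⟩ := exists_chart_off₂ hS 𝔞 𝔠
  obtain ⟨ς, hς⟩ := exists_isCoord_neg hdeg hstep hSm had hξ
  obtain ⟨ε, hε⟩ := exists_isCoord_neg hdeg hstep hSm hdc hς
  exact ⟨ε, by rwa [neg_neg] at hε⟩

/-- addition without disjointness hypotheses. -/
theorem exists_isCoord_add_any (hS : ChartSupply Φ n) {𝔞 𝔟 : Chart Φ n} (𝔠 : Chart Φ n)
    {ξ η : Pic0 K F} {τ σ : Fin n → K} (hξ : IsCoord 𝔞 ξ τ) (hη : IsCoord 𝔟 η σ) :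
    ∃ ε : Fin n → K, IsCoord 𝔠 (ξ + η) ε := by
  obtain ⟨𝔟', hab'⟩ := exists_chart_off₁ hS 𝔞
  obtain ⟨σ', hη'⟩ := exists_isCoord_any hdeg hstep hSm hS 𝔟' hη
  exact exists_isCoord_add hdeg hstep hSm hS hab' hξ hη'

/-- negation without disjointness hypotheses. -/
theorem exists_isCoord_neg_any (hS : ChartSupply Φ n) {𝔞 : Chart Φ n} (𝔠 : Chart Φ n)
    {ξ : Pic0 K F} {τ : Fin n → K} (hξ : IsCoord 𝔞 ξ τ) : ∃ ε : Fin n → K, IsCoord 𝔠 (-ξ) ε := by
  obtain ⟨𝔡, had⟩ := exists_chart_off₁ hS 𝔞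
  obtain ⟨ς, hς⟩ := exists_isCoord_neg hdeg hstep hSm had hξ
  exact exists_isCoord_any hdeg hstep hSm hS 𝔠 hς

end Ops

/-! ### the group of classes with coordinates -/

/-- **the subgroup of `Pic0` of the classes having coordinates** (in some, equivalently every,
chart). -/
def coordGroup (hdeg : ∀ P : Place K F, P.deg = 1) (hstep : StepSpec Φ n)
    (hSm : CoordSmall Φ n) (hS : ChartSupply Φ n) : AddSubgroup (Pic0 K F) where
  carrier := {ξ | ∃ (𝔠 : Chart Φ n) (τ : Fin n → K), IsCoord 𝔠 ξ τ}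
  zero_mem' := by
    obtain ⟨𝔠, -⟩ := hS ∅
    exact ⟨𝔠, _, isCoord_zero hdeg 𝔠⟩
  add_mem' := by
    rintro ξ η ⟨𝔞, τ, hξ⟩ ⟨𝔟, σ, hη⟩
    obtain ⟨ε, hε⟩ := exists_isCoord_add_any hdeg hstep hSm hS 𝔞 hξ hη
    exact ⟨𝔞, ε, hε⟩
  neg_mem' := by
    rintro ξ ⟨𝔞, τ, hξ⟩
    obtain ⟨ε, hε⟩ := exists_isCoord_neg_any hdeg hstep hSm hS 𝔞 hξ
    exact ⟨𝔞, ε, hε⟩

theorem mem_coordGroup (hdeg : ∀ P : Place K F, P.deg = 1) (hstep : StepSpec Φ n)
    (hSm : CoordSmall Φ n) (hS : ChartSupply Φ n) {ξ : Pic0 K F} :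
    ξ ∈ coordGroup hdeg hstep hSm hS ↔ ∃ (𝔠 : Chart Φ n) (τ : Fin n → K), IsCoord 𝔠 ξ τ :=
  Iff.rfl

theorem IsCoord.mem_coordGroup (hdeg : ∀ P : Place K F, P.deg = 1) (hstep : StepSpec Φ n)
    (hSm : CoordSmall Φ n) (hS : ChartSupply Φ n) {𝔠 : Chart Φ n} {ξ : Pic0 K F} {τ : Fin n → K}
    (h : IsCoord 𝔠 ξ τ) : ξ ∈ coordGroup hdeg hstep hSm hS :=
  ⟨𝔠, τ, h⟩

/-- **every class of the coordinate group has coordinates in every chart.** -/
theorem coordExists_coordGroup (hdeg : ∀ P : Place K F, P.deg = 1) (hstep : StepSpec Φ n)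
    (hSm : CoordSmall Φ n) (hS : ChartSupply Φ n) :
    CoordExists Φ n ((coordGroup hdeg hstep hSm hS : AddSubgroup (Pic0 K F)) : Set (Pic0 K F)) := by
  rintro 𝔠 ξ ⟨𝔞, τ, hξ⟩
  exact exists_isCoord_any hdeg hstep hSm hS 𝔠 hξ

/-! ### from the facts of the frame -/

section Main

variable (hΦ : DiscFacts Φ) (hn : (n : ℤ) = Φ.g)
  (harch : ∀ x y : K, Φ.A.valuation x < 1 → y ≠ 0 →
    ∃ m : ℕ, Φ.A.valuation x ^ m ≤ Φ.A.valuation y)
  (hS : ChartSupply Φ n)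

/-- the coordinate group of a frame of genus `n`. -/
def coordGroup_main : AddSubgroup (Pic0 K F) :=
  coordGroup hΦ.degF (stepSpec_main hΦ hn harch) (coordSmall hΦ n) hS

theorem mem_coordGroup_main {ξ : Pic0 K F} :
    ξ ∈ coordGroup_main hΦ hn harch hS ↔ ∃ (𝔠 : Chart Φ n) (τ : Fin n → K), IsCoord 𝔠 ξ τ :=
  Iff.rfl

/-- `CoordExists` for the full coordinate group, binder-free. -/
theorem coordExists_main :
    CoordExists Φ n ((coordGroup_main hΦ hn harch hS : AddSubgroup (Pic0 K F)) :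
      Set (Pic0 K F)) :=
  coordExists_coordGroup hΦ.degF (stepSpec_main hΦ hn harch) (coordSmall hΦ n) hS

include hΦ hn harch hS in
/-- the sum of two classes with coordinates has coordinates (any charts). -/
theorem exists_isCoord_add_main {𝔞 𝔟 : Chart Φ n} (𝔠 : Chart Φ n) {ξ η : Pic0 K F}
    {τ σ : Fin n → K} (hξ : IsCoord 𝔞 ξ τ) (hη : IsCoord 𝔟 η σ) :
    ∃ ε : Fin n → K, IsCoord 𝔠 (ξ + η) ε :=
  exists_isCoord_add_any hΦ.degF (stepSpec_main hΦ hn harch) (coordSmall hΦ n) hS 𝔠 hξ hη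

include hΦ hn harch hS in
/-- the opposite of a class with coordinates has coordinates (any charts). -/
theorem exists_isCoord_neg_main {𝔞 : Chart Φ n} (𝔠 : Chart Φ n) {ξ : Pic0 K F}
    {τ : Fin n → K} (hξ : IsCoord 𝔞 ξ τ) : ∃ ε : Fin n → K, IsCoord 𝔠 (-ξ) ε :=
  exists_isCoord_neg_any hΦ.degF (stepSpec_main hΦ hn harch) (coordSmall hΦ n) hS 𝔠 hξ

include hΦ hn harch hS in
/-- change of chart. -/
theorem exists_isCoord_any_main {𝔞 : Chart Φ n} (𝔠 : Chart Φ n) {ξ : Pic0 K F}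
    {τ : Fin n → K} (hξ : IsCoord 𝔞 ξ τ) : ∃ ε : Fin n → K, IsCoord 𝔠 ξ ε :=
  exists_isCoord_any hΦ.degF (stepSpec_main hΦ hn harch) (coordSmall hΦ n) hS 𝔠 hξ

end Main

end Fermat.Agent.GS.Frame.CoordGroup
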