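/-
GATE-F / FRAME², generic layer (helper92): the CONTRACT `ParamSurj` of an abstract disc frame
(`GS/Frame/Vocab.lean`) — every element of the maximal ideal of `Φ.A` is the value of a chart
parameter at a point of its disc — and its consequence: EVERY small vector `τ` is the coordinate
vector of a class (the `CoordSurj` binder of FORMAL-ADD).

* `ParamSurj Φ`              : the contract (a theorem on the smooth frame and on the nodal frame);
* `exists_points_of_small`   : the family of points `Pτ i` with `t_i (Pτ i) = τ i`;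
* `isCoord_classOf`          : the class `[Σ Pτ i - D0]` has coordinates `τ`;
* `exists_isCoord_of_small`  : `∃ ξ, IsCoord 𝔠 ξ τ`;
* `points_unique`            : the points are determined by `τ` (from (F4)).
-/
import Mathlib
import Fermat.Agent.GS.Frame.Vocab

set_option autoImplicit false

noncomputable section

open AlgebraicCurve

namespace Fermat.Agent.GS.Frame

open Fermat.Agent.RRh45 Fermat.Agent.GH

variable {K F k Sp 𝒬 : Type*} [Field K] [Field F] [Algebra K F] [Field k]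
  [CommRing Sp] [Algebra k Sp]

/-- CONTRACT: every element of the maximal ideal of `Φ.A` is the value of any chart parameter at
some point of its disc. -/
def ParamSurj (Φ : DiscData K F k Sp 𝒬) : Prop :=
  ∀ {Q : 𝒬} (pt : CPt Φ Q) (a : K), Φ.A.valuation a < 1 → ∃ P ∈ Φ.disc Q, ValueAt P pt.t a

variable {Φ : DiscData K F k Sp 𝒬} {n : ℕ}

/-- the points of the discs of a chart with prescribed small parameters. -/
theorem exists_points_of_small (h : ParamSurj Φ) (𝔠 : Chart Φ n) (τ : Fin n → K)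
    (hτ : ∀ i, Φ.A.valuation (τ i) < 1) :
    ∃ Pτ : Fin n → Place K F, (∀ i, Pτ i ∈ Φ.disc (𝔠.Q i)) ∧
      ∀ i, ValueAt (Pτ i) (𝔠.pt i).t (τ i) := by
  choose Pτ h1 h2 using fun i => h (𝔠.pt i) (τ i) (hτ i)
  exact ⟨Pτ, h1, h2⟩

/-- the divisor `Σ Pτ i - D0` has degree zero (all places have degree one). -/
theorem sum_sub_D0_mem_degZero (hdeg : ∀ P : Place K F, P.deg = 1) (𝔠 : Chart Φ n)
    (Pτ : Fin n → Place K F) :
    (∑ i, Finsupp.single (Pτ i) (1 : ℤ)) - 𝔠.D0 ∈ Divisor.degZero (K := K) (F := F) := by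
  rw [Divisor.mem_degZero, map_sub, Chart.D0, map_sum, map_sum]
  have e : ∀ X : Fin n → Place K F,
      ∑ i, Divisor.degree (Finsupp.single (X i) (1 : ℤ)) = (n : ℤ) := fun X => by
    rw [Finset.sum_congr rfl fun i _ => by rw [Divisor.degree_single, hdeg (X i)]]
    simp
  rw [e, e, sub_self]

/-- the class of `Σ Pτ i - D0`. -/
def classOf (hdeg : ∀ P : Place K F, P.deg = 1) (𝔠 : Chart Φ n) (Pτ : Fin n → Place K F) :
    Pic0 K F :=
  Pic0.mk ⟨_, sum_sub_D0_mem_degZero hdeg 𝔠 Pτ⟩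

theorem isCoord_classOf (hdeg : ∀ P : Place K F, P.deg = 1) (𝔠 : Chart Φ n)
    {Pτ : Fin n → Place K F} (hP : ∀ i, Pτ i ∈ Φ.disc (𝔠.Q i)) {τ : Fin n → K}
    (hv : ∀ i, ValueAt (Pτ i) (𝔠.pt i).t (τ i)) : IsCoord 𝔠 (classOf hdeg 𝔠 Pτ) τ :=
  ⟨Pτ, hP, hv, sum_sub_D0_mem_degZero hdeg 𝔠 Pτ, rfl⟩

/-- **every small vector is a coordinate vector.** -/
theorem exists_isCoord_of_small (hdeg : ∀ P : Place K F, P.deg = 1) (h : ParamSurj Φ)
    (𝔠 : Chart Φ n) (τ : Fin n → K) (hτ : ∀ i, Φ.A.valuation (τ i) < 1) :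
    ∃ ξ : Pic0 K F, IsCoord 𝔠 ξ τ := by
  obtain ⟨Pτ, hP, hv⟩ := exists_points_of_small h 𝔠 τ hτ
  exact ⟨classOf hdeg 𝔠 Pτ, isCoord_classOf hdeg 𝔠 hP hv⟩

/-- the points of the discs with given parameters are unique (from (F4)). -/
theorem points_unique (hΦ : DiscFacts Φ) (𝔠 : Chart Φ n) {τ : Fin n → K}
    {Pτ Pτ' : Fin n → Place K F} (hP : ∀ i, Pτ i ∈ Φ.disc (𝔠.Q i))
    (hP' : ∀ i, Pτ' i ∈ Φ.disc (𝔠.Q i)) (hv : ∀ i, ValueAt (Pτ i) (𝔠.pt i).t (τ i))
    (hv' : ∀ i, ValueAt (Pτ' i) (𝔠.pt i).t (τ i)) : Pτ = Pτ' :=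
  funext fun i => hΦ.disc_inj (𝔠.pt i) (τ i) _ _ (hP i) (hP' i) (hv i) (hv' i)

/-- with `ParamSurj` and `CoordSmall`, "`τ` is a coordinate vector of some class" is "`τ` is
small". -/
theorem exists_isCoord_iff_small (hdeg : ∀ P : Place K F, P.deg = 1) (h : ParamSurj Φ)
    (hsm : CoordSmall Φ n) (𝔠 : Chart Φ n) (τ : Fin n → K) :
    (∃ ξ : Pic0 K F, IsCoord 𝔠 ξ τ) ↔ ∀ i, Φ.A.valuation (τ i) < 1 :=
  ⟨fun ⟨ξ, hξ⟩ => hsm 𝔠 ξ τ hξ, exists_isCoord_of_small hdeg h 𝔠 τ⟩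

end Fermat.Agent.GS.Frame
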